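import Fermat.Agent.FlatJ.EffRep

/-!
Auxiliary results: values and semilinear automorphisms, values on divisors, orthonormal bases.
-/

set_option autoImplicit false
set_option linter.unusedSectionVars false

noncomputable section

open AlgebraicCurve Module

namespace Fermat.Agent.FlatJ

open Fermat.Agent.FunField Fermat.Agent.FunField.PlaceLemmas Fermat.Agent.S27C
  Fermat.Agent.TorsInj Fermat.Agent.Deuring

attribute [local instance] Fermat.Agent.WeilPairing.isCurveOver

section Gen

variable {K F : Type*} [Field K] [Field F] [Algebra K F] [IsFF K F] [IsAlgClosed K]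

/-- Semilinear equivariance of values. -/
theorem val_smul (g : SemilinearAut K F) (P : Place K F) {f : F}
    (hf : f ∈ P.toValuationSubring) :
    val (g • P) (g • f) = SemilinearAut.baseAut g (val P f) := by
  apply Fermat.Agent.WeilPairing.val_eq_of_ord_sub
  rcases ord_pos_of_val_eq hf _ rfl with h | h
  · left
    conv_lhs => rw [h]
    rw [SemilinearAut.smul_algebraMap]
  · right
    rw [← SemilinearAut.smul_algebraMap, ← smul_sub, SemilinearAut.ord_smul]
    exact h

omit [IsAlgClosed K] [IsFF K F] in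
theorem mem_smul_place (g : SemilinearAut K F) (P : Place K F) {f : F} :
    g • f ∈ (g • P).toValuationSubring ↔ f ∈ P.toValuationSubring := by
  rw [S27C.mem_iff_ord, S27C.mem_iff_ord, SemilinearAut.ord_smul, smul_eq_zero_iff_eq]

omit [IsAlgClosed K] in
theorem divOf_smul' (g : SemilinearAut K F) (f : F) :
    (divOf (g • f) : Divisor K F) = g • divOf f := by
  ext v
  rw [divOf_apply, SemilinearAut.divisor_smul_apply, divOf_apply]
  have := SemilinearAut.ord_smul g (g⁻¹ • v) f
  rwa [smul_inv_smul] at this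

/-- functions with the same divisor -/
theorem eq_smul_of_divOf_eq {f f' : F} (hf : f ≠ 0) (hf' : f' ≠ 0)
    (h : (divOf f : Divisor K F) = divOf f') : ∃ c : K, c ≠ 0 ∧ f' = c • f := by
  obtain ⟨c, hc⟩ : ∃ c : K, algebraMap K F c = f' / f := by
    apply exists_eq_algebraMap_of_forall_ord_nonneg
    intro v
    have h1 := congrArg (fun D : Divisor K F => D v) h
    simp only [divOf_apply] at h1
    rw [ord_div v hf' hf, h1, sub_self]
  have hc' : f' = c • f := by
    rw [Algebra.smul_def, hc]
    field_simp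
  refine ⟨c, ?_, hc'⟩
  rintro rfl
  rw [zero_smul] at hc'
  exact hf' hc'

/-- The value of a function on a divisor. -/
def evalDiv (f : F) (D : Divisor K F) : K := D.prod fun P j => val P f ^ j

theorem evalDiv_add (f : F) (D D' : Divisor K F) (h : ∀ P, D P ≠ 0 ∨ D' P ≠ 0 → val P f ≠ 0) :
    evalDiv f (D + D') = evalDiv f D * evalDiv f D' := by
  classical
  unfold evalDiv
  refine Finsupp.prod_add_index (fun P _ => zpow_zero _) fun P hP a b => ?_
  refine zpow_add₀ (h P ?_) a b
  rw [Finset.mem_union, Finsupp.mem_support_iff, Finsupp.mem_support_iff] at hP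
  exact hP

theorem evalDiv_neg (f : F) (D : Divisor K F) : evalDiv f (-D) = (evalDiv f D)⁻¹ := by
  unfold evalDiv
  rw [Finsupp.prod_neg_index (fun P => zpow_zero _), Finsupp.prod, Finsupp.prod,
    ← Finset.prod_inv_distrib]
  exact Finset.prod_congr rfl fun P _ => zpow_neg _ _

theorem evalDiv_single (f : F) (P : Place K F) (n : ℤ) :
    evalDiv f (Finsupp.single P n) = val P f ^ n := by
  unfold evalDiv
  exact Finsupp.prod_single_index (zpow_zero _)

theorem evalDiv_sub (f : F) (D D' : Divisor K F) (h : ∀ P, D P ≠ 0 ∨ D' P ≠ 0 → val P f ≠ 0) :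
    evalDiv f (D - D') = evalDiv f D / evalDiv f D' := by
  rw [sub_eq_add_neg, evalDiv_add f D (-D'), evalDiv_neg, div_eq_mul_inv]
  intro P hP
  refine h P ?_
  rwa [Finsupp.neg_apply, neg_ne_zero] at hP

theorem evalDiv_ne_zero (f : F) (D : Divisor K F) (h : ∀ P, D P ≠ 0 → val P f ≠ 0) :
    evalDiv f D ≠ 0 := by
  unfold evalDiv
  rw [Finsupp.prod, Finset.prod_ne_zero_iff]
  intro P hP
  exact zpow_ne_zero _ (h P (Finsupp.mem_support_iff.1 hP))

end Gen

section Ortho

variable {L k F F₁ : Type*} [Field L] [Field k] [Field F] [Field F₁] [Algebra L F]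
  [Algebra k F₁] (𝔇 : Data L k F F₁)

/-- Orthonormal families of full length. -/
theorem exists_coeff {V : Submodule L F} [FiniteDimensional L V] (u : Fin (finrank L V) → 𝔇.O)
    (hu : ∀ i, ((u i : 𝔇.O) : F) ∈ V) (hli : LinearIndependent k (fun i => 𝔇.res (u i)))
    {f : F} (hf : f ∈ V) : ∃ c : Fin (finrank L V) → L, f = ∑ i, c i • ((u i : 𝔇.O) : F) := by
  have hli1 := 𝔇.linearIndependent_of_res u hli
  have hli' : LinearIndependent L (fun i => (⟨((u i : 𝔇.O) : F), hu i⟩ : V)) := by
    apply LinearIndependent.of_comp V.subtype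
    exact hli1
  have htop := hli'.span_eq_top_of_card_eq_finrank' (by simp)
  have hfmem : (⟨f, hf⟩ : V) ∈
      Submodule.span L (Set.range fun i => (⟨((u i : 𝔇.O) : F), hu i⟩ : V)) := by
    rw [htop]; trivial
  obtain ⟨c, hc⟩ := (Submodule.mem_span_range_iff_exists_fun L).mp hfmem
  refine ⟨c, ?_⟩
  have := congrArg Subtype.val hc
  simpa using this.symm

theorem exists_coeff_int {V : Submodule L F} [FiniteDimensional L V]
    (u : Fin (finrank L V) → 𝔇.O)
    (hu : ∀ i, ((u i : 𝔇.O) : F) ∈ V) (hli : LinearIndependent k (fun i => 𝔇.res (u i)))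
    (f : 𝔇.O) (hf : (f : F) ∈ V) : ∃ c : Fin (finrank L V) → 𝔇.A, f = ∑ i, 𝔇.cst (c i) * u i := by
  obtain ⟨c, hc⟩ := exists_coeff 𝔇 u hu hli hf
  have hcA : ∀ i, c i ∈ 𝔇.A := 𝔇.coeff_mem u hli c (by rw [← hc]; exact f.2)
  refine ⟨fun i => ⟨c i, hcA i⟩, ?_⟩
  apply Subtype.ext
  push_cast
  rw [hc]
  refine Finset.sum_congr rfl fun i _ => ?_
  rw [Algebra.smul_def]
  rfl

end Ortho

end Fermat.Agent.FlatJ
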