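import Fermat.Agent.FlatJ.QBasis
import Fermat.Agent.HeckeRed.FF
import Fermat.Agent.FlatJ.Misc

/-!
The cusp at infinity of the modular curve.
-/

set_option autoImplicit false
set_option linter.unusedSectionVars false

noncomputable section

open HahnSeries ModularCurve Module AlgebraicCurve

namespace Fermat.Agent.FlatJ

open Fermat.Agent.FunField

/-- Laurent series without polar part. -/
def lsVal (L : Type*) [Field L] : ValuationSubring (LaurentSeries L) :=
  (AddValuation.toValuation (HahnSeries.addVal ℤ L)).valuationSubring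

theorem mem_lsVal {L : Type*} [Field L] {x : LaurentSeries L} :
    x ∈ lsVal L ↔ ∀ n : ℤ, n < 0 → x.coeff n = 0 := by
  have h1 : x ∈ lsVal L ↔ (0 : WithTop ℤ) ≤ x.orderTop := by
    rw [lsVal, Valuation.mem_valuationSubring_iff, ← HahnSeries.addVal_apply]
    exact Iff.rfl
  rw [h1]
  constructor
  · intro h n hn
    apply HahnSeries.coeff_eq_zero_of_lt_orderTop
    refine lt_of_lt_of_le ?_ h
    exact_mod_cast hn
  · intro h
    by_contra hcon
    push Not at hcon
    have hx0 : x ≠ 0 := by
      rintro rfl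
      rw [HahnSeries.orderTop_zero] at hcon
      exact absurd hcon (by simp)
    have h2 : x.orderTop = (x.order : WithTop ℤ) := (HahnSeries.order_eq_orderTop_of_ne_zero hx0).symm
    rw [h2] at hcon
    have h3 : x.order < 0 := by exact_mod_cast hcon
    exact (HahnSeries.coeff_order_eq_zero.not.2 hx0) (h _ h3)

section

variable {L : Type*} [Field L] [Algebra ℚ L] (F₀ : IntermediateField ℚ (LaurentSeries ℚ))
  [IsFF L (laurentBaseChange L F₀)]

/-- The cusp at infinity. -/
def cuspInf (h : ∃ x ∈ laurentBaseChange L F₀, ∃ n : ℤ, n < 0 ∧ x.coeff n ≠ 0) :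
    Place L (laurentBaseChange L F₀) :=
  placeOfValuationSubring ((lsVal L).comap ((laurentBaseChange L F₀).val : _ →+* LaurentSeries L))
    (fun c => by
      rw [ValuationSubring.mem_comap, mem_lsVal]
      intro n hn
      change (algebraMap L (LaurentSeries L) c).coeff n = 0
      rw [algebraMap_laurentSeries_eq_single, HahnSeries.coeff_single_of_ne hn.ne])
    (fun htop => by
      obtain ⟨x, hx, n, hn, hne⟩ := h
      have h1 : (⟨x, hx⟩ : laurentBaseChange L F₀) ∈
          (lsVal L).comap ((laurentBaseChange L F₀).val : _ →+* LaurentSeries L) := by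
        rw [htop]; exact ValuationSubring.mem_top _
      rw [ValuationSubring.mem_comap, mem_lsVal] at h1
      exact hne (h1 n hn))

variable {F₀}

theorem mem_cuspInf {h : ∃ x ∈ laurentBaseChange L F₀, ∃ n : ℤ, n < 0 ∧ x.coeff n ≠ 0}
    {x : laurentBaseChange L F₀} :
    x ∈ (cuspInf F₀ h).toValuationSubring ↔
      ∀ n : ℤ, n < 0 → (x : LaurentSeries L).coeff n = 0 := mem_lsVal

open scoped Pointwise in
theorem smul_cuspInf (h : ∃ x ∈ laurentBaseChange L F₀, ∃ n : ℤ, n < 0 ∧ x.coeff n ≠ 0)
    (σ : L ≃ₐ[ℚ] L) : arithmeticGalois F₀ σ • cuspInf F₀ h = cuspInf F₀ h := by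
  apply Place.toValuationSubring_injective
  ext x
  rw [SemilinearAut.smul_toValuationSubring,
    ValuationSubring.mem_pointwise_smul_iff_inv_smul_mem, ← map_inv, mem_cuspInf, mem_cuspInf]
  refine forall_congr' fun n => forall_congr' fun _ => ?_
  rw [coe_arithmeticGalois_smul, coeffMap_coeff]
  exact map_eq_zero_iff _ (σ⁻¹ : L ≃ₐ[ℚ] L).injective

end

end Fermat.Agent.FlatJ
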