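import Fermat.Agent.FlatJ.Integrality
import Fermat.Agent.FlatJ.CuspInf
import Fermat.Agent.WeilPairing.Nondeg
import Fermat.Agent.BaseChangeFF.Divisible
import Fermat.Agent.GalJ.Level
import Fermat.Agent.FrobE.Final
import Fermat.Agent.ModDeg.General
import Fermat.Agent.S27

/-!
Flatness of the `n`-torsion of `J₀(N)` at primes not dividing `N`.
-/

set_option autoImplicit false
set_option linter.unusedSectionVars false

noncomputable section

open ModularCurve Module AlgebraicCurve GaloisRep

namespace Fermat.Agent.FlatJ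

open Fermat.Agent.FunField Fermat.Agent.HopfOrder Fermat.Agent.Deuring Fermat.Agent.Igusa

section Residue

/-- The residue field of a valuation ring of an algebraically closed field is algebraically
closed. -/
theorem isAlgClosed_residueField {L : Type*} [Field L] [IsAlgClosed L] (A : ValuationSubring L) :
    IsAlgClosed (IsLocalRing.ResidueField A) := by
  apply IsAlgClosed.of_exists_root
  intro p hp hirr
  have hl : p ∈ Polynomial.lifts (IsLocalRing.residue A) := by
    rw [Polynomial.lifts_iff_coeff_lifts]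
    intro n
    exact IsLocalRing.residue_surjective _
  obtain ⟨q, hq, hqd, hqm⟩ := Polynomial.lifts_and_natDegree_eq_and_monic hl hp
  have hdeg : (q.map (algebraMap A L)).degree ≠ 0 := by
    rw [hqm.degree_map]
    intro h0
    have h1 : q.natDegree = 0 := Polynomial.natDegree_eq_of_degree_eq_some h0
    rw [hqd] at h1
    exact hirr.natDegree_pos.ne' h1
  obtain ⟨x, hx⟩ := IsAlgClosed.exists_root _ hdeg
  have hxint : IsIntegral A x := ⟨q, hqm, by
    rw [Polynomial.IsRoot.def, Polynomial.eval_map] at hx
    exact hx⟩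
  obtain ⟨y, hy⟩ := IsIntegrallyClosed.isIntegral_iff.mp hxint
  refine ⟨IsLocalRing.residue A y, ?_⟩
  have h1 : q.eval y = 0 := by
    apply IsFractionRing.injective A L
    rw [map_zero, ← Polynomial.eval₂_at_apply, hy, ← Polynomial.eval_map]
    exact hx
  rw [← hq, Polynomial.eval_map, Polynomial.eval₂_at_apply, h1, map_zero]

theorem exists_pow_eq {k : Type*} [Field k] (ℓ : ℕ) [Fact ℓ.Prime] [Algebra (ZMod ℓ) k]
    [Algebra.IsAlgebraic (ZMod ℓ) k] (a : k) : ∃ s, 0 < s ∧ a ^ (ℓ ^ s) = a := by
  have hint : IsIntegral (ZMod ℓ) a := Algebra.IsIntegral.isIntegral a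
  have hfd : FiniteDimensional (ZMod ℓ) (IntermediateField.adjoin (ZMod ℓ) {a}) :=
    IntermediateField.adjoin.finiteDimensional hint
  have hfin : Finite (IntermediateField.adjoin (ZMod ℓ) {a}) :=
    Module.finite_of_finite (ZMod ℓ)
  have := Fintype.ofFinite (IntermediateField.adjoin (ZMod ℓ) {a})
  let a' : IntermediateField.adjoin (ZMod ℓ) {a} :=
    ⟨a, IntermediateField.mem_adjoin_simple_self _ a⟩
  have h1 := FiniteField.pow_card a'
  have h2 : Fintype.card (IntermediateField.adjoin (ZMod ℓ) {a}) =
      ℓ ^ finrank (ZMod ℓ) (IntermediateField.adjoin (ZMod ℓ) {a}) := by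
    rw [Module.card_eq_pow_finrank (K := ZMod ℓ), ZMod.card]
  rw [h2] at h1
  exact ⟨_, Module.finrank_pos, congrArg Subtype.val h1⟩

end Residue

section RR

variable {K F : Type*} [Field K] [Field F] [Algebra K F] [IsFF K F] [IsAlgClosed K]

theorem smul_mem_rr_single (g : SemilinearAut K F) {P : Place K F} (hP : g • P = P) (m : ℤ)
    {f : F} (hf : f ∈ riemannRochSpace (Finsupp.single P m : Divisor K F)) :
    g • f ∈ riemannRochSpace (Finsupp.single P m : Divisor K F) := by
  classical
  rcases eq_or_ne f 0 with rfl | hf0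
  · rw [smul_zero]; exact Submodule.zero_mem _
  have hf0' : g • f ≠ 0 := (smul_ne_zero_iff_ne _).2 hf0
  rw [Fermat.Agent.Deuring.mem_rr_of_ne hf0']
  rw [Fermat.Agent.Deuring.mem_rr_of_ne hf0] at hf
  intro v
  have h1 := hf (g⁻¹ • v)
  have h2 := SemilinearAut.ord_smul g (g⁻¹ • v) f
  rw [smul_inv_smul] at h2
  rw [h2]
  refine le_trans (le_of_eq ?_) h1
  congr 1
  rw [Finsupp.single_apply, Finsupp.single_apply]
  have h3 : P = v ↔ P = g⁻¹ • v := by
    rw [eq_inv_smul_iff, hP]
  by_cases h4 : P = v
  · rw [if_pos h4, if_pos (h3.1 h4)]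
  · rw [if_neg h4, if_neg (fun h => h4 (h3.2 h))]

end RR

section Torsion

variable {G J : Type*} [Group G] [AddCommGroup J] [DistribMulAction G J]

theorem smul_mem_torsionBy (a : ℤ) (g : G) {x : J} (hx : x ∈ Submodule.torsionBy ℤ J a) :
    g • x ∈ Submodule.torsionBy ℤ J a := by
  rw [Submodule.mem_torsionBy_iff] at hx ⊢
  have : a • (g • x) = g • (a • x) := (map_zsmul (DistribSMul.toAddMonoidHom J g) a x).symm
  rw [this, hx, smul_zero]

/-- the action on the torsion submodule -/
@[reducible] def torsionAction (G J : Type*) [Group G] [AddCommGroup J] [DistribMulAction G J]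
    (a : ℤ) : DistribMulAction G (Submodule.torsionBy ℤ J a) where
  smul g x := ⟨g • (x : J), smul_mem_torsionBy a g x.2⟩
  one_smul x := Subtype.ext (one_smul G (x : J))
  mul_smul g h x := Subtype.ext (mul_smul g h (x : J))
  smul_zero g := Subtype.ext (smul_zero g)
  smul_add g x y := Subtype.ext (smul_add g (x : J) (y : J))

end Torsion

section Main

attribute [local instance] Fermat.Agent.WeilPairing.isCurveOver

variable (N : ℕ) [NeZero N] (ℓ : ℕ) [hℓ : Fact ℓ.Prime]

instance isGalois_Qb : IsGalois ℚ (AlgebraicClosure ℚ) := inferInstance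

theorem exists_polar : ∃ x ∈ laurentBaseChange (AlgebraicClosure ℚ) (modularFunctionFieldFull N),
    ∃ n : ℤ, n < 0 ∧ x.coeff n ≠ 0 := by
  refine ⟨jqModC (AlgebraicClosure ℚ), ?_, -1, by norm_num, ?_⟩
  · rw [Fermat.Agent.Igusa.laurentBaseChange_full]
    exact jqModC_mem_full _ N
  · rw [coeff_jqModC_neg_one]
    exact one_ne_zero

/-- The cusp at infinity of `X₀(N)`. -/
def infN : Place (AlgebraicClosure ℚ) (modularFunctionFieldBar N) :=
  cuspInf (modularFunctionFieldFull N) (exists_polar N)

theorem smul_infN (σ : GQ) :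
    arithmeticGalois (modularFunctionFieldFull N) σ • infN N = infN N :=
  smul_cuspInf (exists_polar N) σ

theorem isTame_bar : IsTameField (modularFunctionFieldBar N) := by
  rw [modularFunctionFieldBar_eq]
  exact isTameField_full N

theorem smul_mem_rr_inf (m : ℤ) (σ : GQ) {f : modularFunctionFieldBar N}
    (hf : f ∈ riemannRochSpace (Finsupp.single (infN N) m :
      Divisor (AlgebraicClosure ℚ) (modularFunctionFieldBar N))) :
    arithmeticGalois (modularFunctionFieldFull N) σ • f ∈
      riemannRochSpace (Finsupp.single (infN N) m :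
        Divisor (AlgebraicClosure ℚ) (modularFunctionFieldBar N)) :=
  smul_mem_rr_single _ (smul_infN N σ) m hf

end Main

end Fermat.Agent.FlatJ
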