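import Fermat.Agent.HopfOrder.RatLoc
import Mathlib.RingTheory.DedekindDomain.PID
import Mathlib.RingTheory.DedekindDomain.IntegralClosure

/-!
Equivariant choices, integrality of equivariant functions, normalisation of contents.
-/

set_option autoImplicit false
set_option linter.unusedSectionVars false

open GaloisRep Polynomial

namespace Fermat.Agent.FlatJ

open Fermat.Agent.HopfOrder

section Choice

variable {G X Y : Type*} [Group G] [MulAction G X] [MulAction G Y]

/-- Equivariant choice. -/
theorem exists_equivariant_choice (P : X → Y → Prop)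
    (hP : ∀ (g : G) x y, P x y → P (g • x) (g • y))
    (hex : ∀ x, ∃ y, P x y ∧ ∀ g : G, g • x = x → g • y = y) :
    ∃ f : X → Y, (∀ x, P x (f x)) ∧ ∀ (g : G) x, f (g • x) = g • f x := by
  classical
  choose y hy hfix using hex
  -- representatives of orbits
  let rep : X → X := fun x => (Quotient.out (Quotient.mk (MulAction.orbitRel G X) x))
  have hrep : ∀ x, ∃ g : G, g • rep x = x := by
    intro x
    have h1 : (MulAction.orbitRel G X).r (rep x) x := Quotient.exact (Quotient.out_eq _)
    have h2 : rep x ∈ MulAction.orbit G x := h1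
    obtain ⟨g, hg⟩ := h2
    exact ⟨g⁻¹, by rw [← hg]; exact inv_smul_smul g x⟩
  have hrep' : ∀ (g : G) x, rep (g • x) = rep x := by
    intro g x
    have : Quotient.mk (MulAction.orbitRel G X) (g • x) = Quotient.mk (MulAction.orbitRel G X) x :=
      Quotient.sound (MulAction.orbitRel_apply.2 ⟨g, rfl⟩)
    simp only [rep, this]
  choose γ hγ using hrep
  refine ⟨fun x => γ x • y (rep x), fun x => ?_, fun g x => ?_⟩
  · have := hP (γ x) _ _ (hy (rep x))
    rwa [hγ] at this
  · simp only [hrep']
    have h1 : ((γ (g • x))⁻¹ * (g * γ x)) • rep x = rep x := by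
      rw [mul_smul, mul_smul, hγ]
      have := hγ (g • x)
      rw [hrep'] at this
      rw [inv_smul_eq_iff, this]
    have h2 := hfix (rep x) _ h1
    rw [mul_smul, inv_smul_eq_iff] at h2
    rw [← h2, mul_smul]

end Choice

section Integral

variable (ℓ : ℕ) [hℓ : Fact ℓ.Prime]

/-- the intersection of a place over `ℓ` with `ℚ` -/
theorem mem_ratLocalizedAt_of_mem (A : ValuationSubring (AlgebraicClosure ℚ))
    (hA : A.LiesOverPrime ℓ) (q : ℚ) (hq : algebraMap ℚ (AlgebraicClosure ℚ) q ∈ A) :
    q ∈ ratLocalizedAt ℓ := by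
  rw [mem_ratLocalizedAt, Nat.coprime_comm, Nat.Prime.coprime_iff_not_dvd hℓ.out]
  intro hdvd
  -- ℓ | den, so ℓ ∤ num
  have hnum : ¬ (ℓ : ℤ) ∣ q.num := by
    intro h
    have h1 := q.reduced
    have h2 : ℓ ∣ q.num.natAbs := Int.natCast_dvd.1 h
    have h3 := Nat.dvd_gcd h2 hdvd
    rw [Nat.Coprime] at h1
    rw [h1] at h3
    exact hℓ.out.one_lt.ne' (Nat.dvd_one.1 h3)
  have hcop : IsCoprime q.num (ℓ : ℤ) :=
    ((Nat.prime_iff_prime_int.1 hℓ.out).coprime_iff_not_dvd.2 hnum).symm
  obtain ⟨a, b, hab⟩ := hcop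
  have h2 : (a : AlgebraicClosure ℚ) * (q.num : AlgebraicClosure ℚ) +
      (b : AlgebraicClosure ℚ) * (ℓ : AlgebraicClosure ℚ) = 1 := by
    exact_mod_cast congrArg (fun z : ℤ => (z : AlgebraicClosure ℚ)) hab
  -- num = q * den is in the maximal ideal
  have h3 : (q.num : AlgebraicClosure ℚ) = algebraMap ℚ (AlgebraicClosure ℚ) q *
      (q.den : AlgebraicClosure ℚ) := by
    have h4 : (q.num : ℚ) = q * (q.den : ℚ) := (Rat.mul_den_eq_num q).symm
    have h5 := congrArg (algebraMap ℚ (AlgebraicClosure ℚ)) h4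
    rwa [map_mul, map_intCast, map_natCast] at h5
  obtain ⟨d, hd⟩ := hdvd
  have hℓA : A.valuation (ℓ : AlgebraicClosure ℚ) < 1 := hA
  have h5 : A.valuation (q.num : AlgebraicClosure ℚ) < 1 := by
    rw [h3, hd]
    push_cast
    rw [mul_left_comm, map_mul]
    refine lt_of_le_of_lt (mul_le_of_le_one_right' ?_) hℓA
    rw [A.valuation_le_one_iff]
    exact A.mul_mem _ _ hq (natCast_mem A d)
  have h6 : ∀ (c : ℤ) (x : AlgebraicClosure ℚ), A.valuation x < 1 →
      A.valuation ((c : AlgebraicClosure ℚ) * x) < 1 := by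
    intro c x hx
    rw [map_mul]
    exact lt_of_le_of_lt (mul_le_of_le_one_left' ((A.valuation_le_one_iff _).2 (intCast_mem A c))) hx
  have h7 := lt_of_le_of_lt (Valuation.map_add A.valuation _ _) (max_lt (h6 a _ h5) (h6 b _ hℓA))
  rw [h2, map_one] at h7
  exact lt_irrefl _ h7

/-- Galois stable integrality at one place. -/
theorem isIntegral_of_forall_mem (A : ValuationSubring (AlgebraicClosure ℚ))
    (hA : A.LiesOverPrime ℓ) (x : AlgebraicClosure ℚ) (h : ∀ σ : GQ, σ x ∈ A) :
    IsIntegral (ratLocalizedAt ℓ) x := by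
  classical
  have hint : IsIntegral ℚ x := Algebra.IsIntegral.isIntegral x
  have hsplit : ((minpoly ℚ x).map (algebraMap ℚ (AlgebraicClosure ℚ))).Splits :=
    IsAlgClosed.splits _
  have hroot : ∀ a ∈ ((minpoly ℚ x).map (algebraMap ℚ (AlgebraicClosure ℚ))).roots, a ∈ A := by
    intro a ha
    rw [mem_roots ((minpoly.monic hint).map _).ne_zero, IsRoot.def, eval_map_algebraMap] at ha
    have h1 : minpoly ℚ x = minpoly ℚ a :=
      minpoly.eq_of_irreducible_of_monic (minpoly.irreducible hint) ha (minpoly.monic hint)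
    obtain ⟨σ, hσ⟩ := (Normal.minpoly_eq_iff_mem_orbit (F := ℚ) (E := AlgebraicClosure ℚ)).1 h1
    have h2 : a = σ⁻¹ x := by
      rw [← hσ]
      exact (inv_smul_smul σ a).symm
    rw [h2]
    exact h _
  have hcoef : ∀ i, ((minpoly ℚ x).map (algebraMap ℚ (AlgebraicClosure ℚ))).coeff i ∈ A := by
    have h1 : (minpoly ℚ x).map (algebraMap ℚ (AlgebraicClosure ℚ)) =
        ((((minpoly ℚ x).map (algebraMap ℚ (AlgebraicClosure ℚ))).roots.pmap
          (fun a ha => (⟨a, ha⟩ : A)) hroot).map (fun a => X - C a)).prod.map A.subtype := by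
      conv_lhs => rw [hsplit.eq_prod_roots_of_monic ((minpoly.monic hint).map _)]
      rw [Polynomial.map_multiset_prod, Multiset.map_map]
      congr 1
      rw [Multiset.map_pmap]
      simp only [Function.comp_apply, Polynomial.map_sub, Polynomial.map_X, Polynomial.map_C]
      exact (Multiset.pmap_eq_map _ _ _ _).symm
    intro i
    rw [h1, coeff_map]
    exact Subtype.property _
  have hlift : ∀ i, (minpoly ℚ x).coeff i ∈ ratLocalizedAt ℓ := by
    intro i
    have := hcoef i
    rw [coeff_map] at this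
    exact mem_ratLocalizedAt_of_mem ℓ A hA _ this
  have hl : minpoly ℚ x ∈ Polynomial.lifts (algebraMap (ratLocalizedAt ℓ) ℚ) := by
    rw [Polynomial.lifts_iff_coeff_lifts]
    intro i
    exact ⟨⟨_, hlift i⟩, rfl⟩
  obtain ⟨q, hq, -, hqm⟩ := Polynomial.lifts_and_natDegree_eq_and_monic hl (minpoly.monic hint)
  refine ⟨q, hqm, ?_⟩
  have h2 := minpoly.aeval ℚ x
  rw [← hq, aeval_map_algebraMap] at h2
  exact h2

/-- Equivariant functions with values in a place over `ℓ` are integral. -/
theorem mem_equivInt_of_forall_mem {X : Type} [MulAction GQ X]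
    (A : ValuationSubring (AlgebraicClosure ℚ))
    (hA : A.LiesOverPrime ℓ) (f : X → AlgebraicClosure ℚ) (hf : ∀ x, f x ∈ A)
    (hequiv : ∀ (σ : GQ) x, f (σ • x) = σ (f x)) :
    f ∈ equivInt (ratLocalizedAt ℓ) ℚ (AlgebraicClosure ℚ) X := by
  refine ⟨fun x => isIntegral_of_forall_mem ℓ A hA _ fun σ => ?_, hequiv⟩
  rw [← hequiv]
  exact hf _

/-- Principal ideal property of semilocal rings of algebraic integers. -/
theorem isPrincipalIdealRing_integralClosure (E : Type) [Field E] [Algebra ℚ E]
    [FiniteDimensional ℚ E] [Algebra (ratLocalizedAt ℓ) E] [IsScalarTower (ratLocalizedAt ℓ) ℚ E] :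
    IsPrincipalIdealRing (integralClosure (ratLocalizedAt ℓ) E) := by
  have hD : IsDedekindDomain (integralClosure (ratLocalizedAt ℓ) E) :=
    integralClosure.isDedekindDomain (ratLocalizedAt ℓ) ℚ E
  have hinj : Function.Injective (algebraMap (ratLocalizedAt ℓ) E) := by
    rw [IsScalarTower.algebraMap_eq (ratLocalizedAt ℓ) ℚ E]
    exact (algebraMap ℚ E).injective.comp (IsFractionRing.injective (ratLocalizedAt ℓ) ℚ)
  have htf : Module.IsTorsionFree (ratLocalizedAt ℓ) (integralClosure (ratLocalizedAt ℓ) E) := by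
    rw [Module.isTorsionFree_iff_algebraMap_injective]
    intro x y hxy
    exact hinj (congrArg Subtype.val hxy)
  have hmax := IsLocalRing.maximalIdeal.isMaximal (ratLocalizedAt ℓ)
  apply IsPrincipalIdealRing.of_finite_primes
  have hfin : (Ideal.primesOver (IsLocalRing.maximalIdeal (ratLocalizedAt ℓ))
      (integralClosure (ratLocalizedAt ℓ) E)).Finite :=
    IsDedekindDomain.primesOver_finite _ _
  refine (hfin.insert ⊥).subset ?_
  intro P hP
  have hP' : P.IsPrime := hP
  rw [Set.mem_insert_iff]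
  by_cases h0 : P = ⊥
  · exact Or.inl h0
  · right
    refine ⟨hP', ⟨?_⟩⟩
    have h2 : P.under (ratLocalizedAt ℓ) ≠ ⊥ := by
      intro h
      exact h0 (Ideal.eq_bot_of_comap_eq_bot h)
    have h3 : (P.under (ratLocalizedAt ℓ)).IsPrime := inferInstance
    have h4 : (P.under (ratLocalizedAt ℓ)).IsMaximal := h3.isMaximal h2
    exact (IsLocalRing.eq_maximalIdeal h4).symm

/-- Content normalisation. -/
theorem exists_content {ι : Type} [Fintype ι] (b : ι → AlgebraicClosure ℚ) (hb : b ≠ 0) :
    ∃ c : AlgebraicClosure ℚ, c ≠ 0 ∧ c ∈ IntermediateField.adjoin ℚ (Set.range b) ∧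
      ∃ s t : ι → AlgebraicClosure ℚ, (∀ i, IsIntegral (ratLocalizedAt ℓ) (s i)) ∧
        (∀ i, IsIntegral (ratLocalizedAt ℓ) (t i)) ∧ (∀ i, b i = s i * c) ∧
        ∑ i, t i * s i = 1 := by
  classical
  let E := IntermediateField.adjoin ℚ (Set.range b)
  have hfd : FiniteDimensional ℚ E :=
    IntermediateField.finiteDimensional_adjoin fun x _ => Algebra.IsIntegral.isIntegral x
  have hPID := isPrincipalIdealRing_integralClosure ℓ E
  have hfrac : IsFractionRing (integralClosure (ratLocalizedAt ℓ) E) E :=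
    integralClosure.isFractionRing_of_finite_extension ℚ E
  let b' : ι → E := fun i => ⟨b i, IntermediateField.subset_adjoin _ _ ⟨i, rfl⟩⟩
  obtain ⟨d, hd⟩ := IsLocalization.exist_integer_multiples_of_finite
    (nonZeroDivisors (integralClosure (ratLocalizedAt ℓ) E)) b'
  choose β hβ using hd
  have hd0 : ((d : integralClosure (ratLocalizedAt ℓ) E) : E) ≠ 0 := by
    intro h
    exact nonZeroDivisors.ne_zero d.2 (Subtype.ext h)
  have hβ' : ∀ i, (β i : E) = (d : integralClosure (ratLocalizedAt ℓ) E) * b' i := fun i => by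
    have := hβ i
    exact this
  obtain ⟨g, hg⟩ := hPID.principal (Ideal.span (Set.range β))
  rw [← Ideal.span] at hg
  have hgm : g ∈ Ideal.span (Set.range β) := by rw [hg]; exact Ideal.mem_span_singleton_self g
  obtain ⟨t, ht⟩ := (Submodule.mem_span_range_iff_exists_fun _).1 hgm
  have hs : ∀ i, ∃ s, β i = s * g := by
    intro i
    have h1 : β i ∈ Ideal.span {g} := by
      rw [← hg]
      exact Ideal.subset_span ⟨i, rfl⟩
    obtain ⟨s, hs⟩ := Ideal.mem_span_singleton'.1 h1
    exact ⟨s, hs.symm⟩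
  choose s hs using hs
  have hg0 : g ≠ 0 := by
    rintro rfl
    apply hb
    funext i
    have h1 := hs i
    rw [mul_zero] at h1
    have h2 := hβ' i
    rw [h1] at h2
    have h3 : b' i = 0 := by
      rcases mul_eq_zero.1 h2.symm with h | h
      · exact absurd h hd0
      · exact h
    exact congrArg Subtype.val h3
  have hgE : (g : E) ≠ 0 := fun h => hg0 (Subtype.ext h)
  refine ⟨((((g : E) / (d : integralClosure (ratLocalizedAt ℓ) E) : E)) : AlgebraicClosure ℚ),
    ?_, Subtype.property _, fun i => ((s i : E) : AlgebraicClosure ℚ),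
    fun i => ((t i : E) : AlgebraicClosure ℚ), fun i => ?_, fun i => ?_, fun i => ?_, ?_⟩
  · intro h
    exact div_ne_zero hgE hd0 (Subtype.ext h)
  · exact (s i).2.map (E.val.restrictScalars (ratLocalizedAt ℓ))
  · exact (t i).2.map (E.val.restrictScalars (ratLocalizedAt ℓ))
  · have h1 : b' i = (s i : E) * ((g : E) / (d : integralClosure (ratLocalizedAt ℓ) E)) := by
      have h2 := hβ' i
      rw [hs i] at h2
      field_simp
      rw [mul_comm]
      exact h2.symm
    exact congrArg Subtype.val h1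
  · have h1 : ∑ i, t i * s i = 1 := by
      apply mul_right_cancel₀ hg0
      rw [one_mul, Finset.sum_mul]
      conv_rhs => rw [← ht]
      refine Finset.sum_congr rfl fun i _ => ?_
      rw [smul_eq_mul, hs i, mul_assoc]
    have h2 := congrArg (fun z : integralClosure (ratLocalizedAt ℓ) E =>
      ((z : E) : AlgebraicClosure ℚ)) h1
    simpa using h2

end Integral

end Fermat.Agent.FlatJ
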