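import Fermat.Agent.FlatJ.Misc
import Fermat.Agent.FlatJ.Choice

/-!
Equivariant normalised coefficients of the functions attached to torsion classes.
-/

set_option autoImplicit false
set_option linter.unusedSectionVars false

noncomputable section

open AlgebraicCurve Module GaloisRep

namespace Fermat.Agent.FlatJ

open Fermat.Agent.FunField Fermat.Agent.FunField.PlaceLemmas Fermat.Agent.S27C
  Fermat.Agent.TorsInj Fermat.Agent.Deuring Fermat.Agent.HopfOrder

attribute [local instance] Fermat.Agent.WeilPairing.isCurveOver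

/-- The algebraic closure of `ℚ`. -/
abbrev Qb : Type := AlgebraicClosure ℚ

variable {ℓ : ℕ} [hℓ : Fact ℓ.Prime] {F : Type} [Field F] [Algebra Qb F] [IsFF Qb F]
  (ρ : GQ →* SemilinearAut Qb F) (hρ : ∀ σ a, SemilinearAut.baseAut (ρ σ) a = σ a)
  {P₀ : Place Qb F} (hP₀ : ∀ σ, ρ σ • P₀ = P₀)
  {M : Type} [MulAction GQ M] (cls : M → Pic0 Qb F) (hcls : ∀ (σ : GQ) y, cls (σ • y) = ρ σ • cls y)
  {n : ℕ} (hn : ∀ y, n • cls y = 0)
  (E : M → Divisor Qb F) (hE : ∀ y, IsMinEffRep P₀ (cls y) (E y))

include hP₀ hcls hE in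
theorem minRep_smul (σ : GQ) (y : M) : E (σ • y) = ρ σ • E y := by
  have h1 := (hE y).smul (ρ σ) (hP₀ σ)
  rw [← hcls] at h1
  exact (hE (σ • y)).unique h1

theorem smul_sum_smul {ι : Type} [Fintype ι] (u : ι → F) (hinv : ∀ (σ : GQ) i, ρ σ • u i = u i)
    (hρ : ∀ σ a, SemilinearAut.baseAut (ρ σ) a = σ a)
    (σ : GQ) (b : ι → Qb) : ρ σ • (∑ i, b i • u i) = ∑ i, σ (b i) • u i := by
  rw [Finset.smul_sum]
  refine Finset.sum_congr rfl fun i _ => ?_
  rw [Algebra.smul_def, Algebra.smul_def, smul_mul', hinv, SemilinearAut.smul_algebraMap, hρ]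

include hρ hP₀ hcls hn hE in
theorem exists_coeffs {m : ℕ} (hm : ∀ y, n * Divisor.degree (E y) ≤ m)
    {ι : Type} [Fintype ι] (u : ι → F)
    (hu : ∀ f ∈ riemannRochSpace (Finsupp.single P₀ (m : ℤ)), ∃ c : ι → Qb, f = ∑ i, c i • u i)
    (hli : LinearIndependent Qb u) (hinv : ∀ (σ : GQ) i, ρ σ • u i = u i) :
    ∃ b : M → ι → Qb, (∀ (σ : GQ) y i, b (σ • y) i = σ (b y i)) ∧
      (∀ y i, IsIntegral (ratLocalizedAt ℓ) (b y i)) ∧
      (∀ y, ∃ t : ι → Qb, (∀ i, IsIntegral (ratLocalizedAt ℓ) (t i)) ∧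
        ∑ i, t i * b y i = 1) ∧
      ∀ y, (divOf (∑ i, b y i • u i) : Divisor Qb F) =
        n • (E y - Finsupp.single P₀ (Divisor.degree (E y))) := by
  classical
  have huniq : ∀ b b' : ι → Qb, ∑ i, b i • u i = ∑ i, b' i • u i → b = b' := by
    intro b b' h
    funext i
    rw [← sub_eq_zero, ← Finset.sum_sub_distrib] at h
    simp only [← sub_smul] at h
    exact sub_eq_zero.1 (Fintype.linearIndependent_iff.1 hli (fun i => b i - b' i) h i)
  have hdiv : ∀ (σ : GQ) y, n • (E (σ • y) - Finsupp.single P₀ (Divisor.degree (E (σ • y)))) =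
      ρ σ • (n • (E y - Finsupp.single P₀ (Divisor.degree (E y)))) := by
    intro σ y
    have h1 : ∀ D : Divisor Qb F, ρ σ • (n • D) = n • (ρ σ • D) := fun D =>
      map_nsmul (DistribSMul.toAddMonoidHom (Divisor Qb F) (ρ σ)) n D
    have h2 : ρ σ • (E y - Finsupp.single P₀ (Divisor.degree (E y))) =
        ρ σ • E y - Finsupp.single P₀ (Divisor.degree (E y)) := by
      rw [smul_sub, SemilinearAut.smul_single, hP₀]
    rw [minRep_smul ρ hP₀ cls hcls E hE, h1, h2, SemilinearAut.degree_smul]
  obtain ⟨b, hb, hbe⟩ := exists_equivariant_choice (G := GQ) (X := M) (Y := ι → Qb)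
    (fun y b => (∀ i, IsIntegral (ratLocalizedAt ℓ) (b i)) ∧
      (∃ t : ι → Qb, (∀ i, IsIntegral (ratLocalizedAt ℓ) (t i)) ∧ ∑ i, t i * b i = 1) ∧
      (divOf (∑ i, b i • u i) : Divisor Qb F) =
        n • (E y - Finsupp.single P₀ (Divisor.degree (E y))))
    (by
      rintro σ y b ⟨h1, ⟨t, ht, ht1⟩, h2⟩
      refine ⟨fun i => (h1 i).map (σ.toAlgHom.restrictScalars (ratLocalizedAt ℓ)),
        ⟨fun i => σ (t i), fun i => (ht i).map (σ.toAlgHom.restrictScalars (ratLocalizedAt ℓ)),
          ?_⟩, ?_⟩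
      · have := congrArg σ ht1
        rw [map_sum, map_one] at this
        rw [← this]
        exact Finset.sum_congr rfl fun i _ => (map_mul σ _ _).symm
      · rw [hdiv, ← h2, ← divOf_smul', smul_sum_smul ρ u hinv hρ]
        rfl)
    (by
      intro y
      obtain ⟨f, hf0, hf⟩ := (hE y).1.exists_torsion (hn y)
      have hfm : f ∈ riemannRochSpace (Finsupp.single P₀ (m : ℤ)) := by
        rw [mem_rr_iff_divOf hf0, ← hf, Finsupp.le_def]
        intro v
        have h1 := Finsupp.le_def.1 (hE y).1.1 v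
        have h2 := hm y
        rw [Finsupp.zero_apply] at h1 ⊢
        rw [Finsupp.add_apply, Finsupp.smul_apply, Finsupp.sub_apply, nsmul_eq_mul,
          Finsupp.single_apply, Finsupp.single_apply]
        split_ifs
        · have : (0 : ℤ) ≤ n * E y v := by positivity
          linarith
        · have : (0 : ℤ) ≤ n * E y v := by positivity
          linarith
      obtain ⟨a, ha⟩ := hu f hfm
      obtain ⟨i₀, hi₀⟩ : ∃ i, a i ≠ 0 := by
        by_contra hcon
        push Not at hcon
        apply hf0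
        rw [ha]
        exact Finset.sum_eq_zero fun i _ => by rw [hcon i, zero_smul]
      set b₀ : ι → Qb := fun i => (a i₀)⁻¹ * a i with hb₀
      have hb₀1 : b₀ i₀ = 1 := inv_mul_cancel₀ hi₀
      have hb₀ne : b₀ ≠ 0 := fun h => by
        have := congrFun h i₀
        rw [hb₀1] at this
        exact one_ne_zero this
      have hfb : ∑ i, b₀ i • u i = (a i₀)⁻¹ • f := by
        rw [ha, Finset.smul_sum]
        exact Finset.sum_congr rfl fun i _ => by rw [smul_smul]
      have hfb0 : ∑ i, b₀ i • u i ≠ 0 := by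
        rw [hfb]
        exact smul_ne_zero (inv_ne_zero hi₀) hf0
      have hbdiv : (divOf (∑ i, b₀ i • u i) : Divisor Qb F) =
          n • (E y - Finsupp.single P₀ (Divisor.degree (E y))) := by
        rw [hfb, hf]
        ext v
        rw [divOf_apply, divOf_apply, ord_smul_of_ne_zero v (inv_ne_zero hi₀)]
      -- the stabilizer fixes `b₀`
      have hfix : ∀ σ : GQ, σ • y = y → ∀ i, σ (b₀ i) = b₀ i := by
        intro σ hσ
        have h1 : (divOf (∑ i, b₀ i • u i) : Divisor Qb F) = divOf (∑ i, σ (b₀ i) • u i) := by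
          rw [← smul_sum_smul ρ u hinv hρ, divOf_smul', hbdiv]
          conv_lhs => rw [← hσ]
          exact hdiv σ y
        have h2 : ∑ i, σ (b₀ i) • u i ≠ 0 := by
          rw [← smul_sum_smul ρ u hinv hρ]
          exact (smul_ne_zero_iff_ne _).2 hfb0
        obtain ⟨c, hc, hc'⟩ := eq_smul_of_divOf_eq hfb0 h2 h1
        rw [Finset.smul_sum] at hc'
        simp only [smul_smul] at hc'
        have h3 := huniq (fun i => σ (b₀ i)) (fun i => c * b₀ i) hc'
        have h4 := congrFun h3 i₀
        simp only [hb₀1, map_one, mul_one] at h4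
        intro i
        have h5 := congrFun h3 i
        rw [h5, ← h4, one_mul]
      obtain ⟨c, hc0, hcmem, s, t, hs, ht, hbs, hst⟩ := exists_content ℓ b₀ hb₀ne
      have hcfix : ∀ σ : GQ, σ • y = y → σ c = c := by
        intro σ hσ
        have hle : IntermediateField.adjoin ℚ (Set.range b₀) ≤
            IntermediateField.fixedField (Subgroup.zpowers σ) := by
          rw [IntermediateField.adjoin_le_iff]
          rintro _ ⟨i, rfl⟩
          rw [SetLike.mem_coe, IntermediateField.mem_fixedField_iff]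
          intro g hg
          obtain ⟨j, rfl⟩ := Subgroup.mem_zpowers_iff.1 hg
          have hj : (σ ^ j) • y = y := by
            have : σ ∈ MulAction.stabilizer GQ y := hσ
            exact zpow_mem this j
          exact hfix _ hj i
        have h1 := hle hcmem
        rw [IntermediateField.mem_fixedField_iff] at h1
        exact h1 σ (Subgroup.mem_zpowers σ)
      refine ⟨s, ⟨hs, ⟨t, ht, hst⟩, ?_⟩, ?_⟩
      · rw [← hbdiv]
        have h1 : ∑ i, b₀ i • u i = c • ∑ i, s i • u i := by
          rw [Finset.smul_sum]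
          exact Finset.sum_congr rfl fun i _ => by rw [smul_smul, hbs i, mul_comm]
        rw [h1]
        ext v
        rw [divOf_apply, divOf_apply, ord_smul_of_ne_zero v hc0]
      · intro σ hσ
        funext i
        have h1 : s i = b₀ i * c⁻¹ := by
          rw [hbs i]; field_simp
        show σ (s i) = s i
        rw [h1, map_mul, map_inv₀, hcfix σ hσ, hfix σ hσ])
  exact ⟨b, fun σ y i => congrFun (hbe σ y) i, fun y => (hb y).1, fun y => (hb y).2.1,
    fun y => (hb y).2.2⟩

end Fermat.Agent.FlatJ
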