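import Fermat.Agent.FlatJ.Values
import Fermat.Agent.TorsInj.DeuringTors

/-!
Minimal effective representatives of divisor classes relative to a fixed place.
-/

set_option autoImplicit false
set_option linter.unusedSectionVars false

noncomputable section

open AlgebraicCurve Module

namespace Fermat.Agent.FlatJ

open Fermat.Agent.FunField Fermat.Agent.FunField.PlaceLemmas Fermat.Agent.S27C
  Fermat.Agent.TorsInj

attribute [local instance] Fermat.Agent.WeilPairing.isCurveOver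

variable {K F : Type*} [Field K] [Field F] [Algebra K F] [IsFF K F] [IsAlgClosed K]

omit [IsFF K F] [IsAlgClosed K] in
theorem mk_eq_zero_iff' (D : Divisor.degZero (K := K) (F := F)) :
    Pic0.mk D = 0 ↔ Divisor.IsPrincipal (D : Divisor K F) := by
  change (QuotientAddGroup.mk D : Pic0 K F) = 0 ↔ _
  rw [QuotientAddGroup.eq_zero_iff, AddSubgroup.mem_addSubgroupOf]
  exact Divisor.mem_principal

omit [IsFF K F] [IsAlgClosed K] in
theorem mk_eq_mk_iff (D D' : Divisor.degZero (K := K) (F := F)) :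
    Pic0.mk D = Pic0.mk D' ↔
      Divisor.IsPrincipal ((D : Divisor K F) - (D' : Divisor K F)) := by
  rw [← sub_eq_zero]
  exact mk_eq_zero_iff' (D - D')

omit [IsAlgClosed K] in
theorem isPrincipal_iff_divOf {D : Divisor K F} :
    Divisor.IsPrincipal D ↔ ∃ f : F, f ≠ 0 ∧ D = divOf f := by
  constructor
  · rintro ⟨f, hf, h⟩
    exact ⟨f, hf, by ext v; rw [h, divOf_apply]⟩
  · rintro ⟨f, hf, rfl⟩
    exact ⟨f, hf, fun v => divOf_apply f v⟩

omit [IsAlgClosed K] in
theorem divOf_mem_degZero (f : F) : (divOf f : Divisor K F) ∈ Divisor.degZero (K := K) (F := F) := by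
  rw [Divisor.mem_degZero, degree_divOf]

/-- `E` is an effective divisor with `[E - deg E · P₀] = y`. -/
def IsEffRep (P₀ : Place K F) (y : Pic0 K F) (E : Divisor K F) : Prop :=
  0 ≤ E ∧ ∃ D : Divisor.degZero (K := K) (F := F), Pic0.mk D = y ∧
    (D : Divisor K F) = E - Finsupp.single P₀ (Divisor.degree E)

variable {P₀ : Place K F} {y : Pic0 K F} {E E' : Divisor K F}

theorem IsEffRep.add_divOf (h : IsEffRep P₀ y E) {f : F} (hf : f ≠ 0)
    (h0 : 0 ≤ E + divOf f) : IsEffRep P₀ y (E + divOf f) := by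
  obtain ⟨hE, D, hD, hDE⟩ := h
  refine ⟨h0, D + ⟨divOf f, divOf_mem_degZero f⟩, ?_, ?_⟩
  · rw [← hD, mk_eq_mk_iff, isPrincipal_iff_divOf]
    exact ⟨f, hf, by simp⟩
  · rw [map_add, degree_divOf, add_zero, AddSubgroup.coe_add, hDE]
    simp only
    abel

theorem IsEffRep.exists_divOf (h : IsEffRep P₀ y E) (h' : IsEffRep P₀ y E') :
    ∃ f : F, f ≠ 0 ∧ E - Finsupp.single P₀ (Divisor.degree E) -
      (E' - Finsupp.single P₀ (Divisor.degree E')) = divOf f := by
  obtain ⟨-, D, hD, hDE⟩ := h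
  obtain ⟨-, D', hD', hDE'⟩ := h'
  have h1 : Pic0.mk D = Pic0.mk D' := by rw [hD, hD']
  rw [mk_eq_mk_iff, isPrincipal_iff_divOf, hDE, hDE'] at h1
  exact h1

theorem IsEffRep.exists_torsion (h : IsEffRep P₀ y E) {n : ℕ} (hn : n • y = 0) :
    ∃ f : F, f ≠ 0 ∧ n • (E - Finsupp.single P₀ (Divisor.degree E)) = divOf f := by
  obtain ⟨-, D, hD, hDE⟩ := h
  have h1 : Pic0.mk (n • D) = 0 := by
    have : Pic0.mk (n • D) = n • Pic0.mk D := rfl
    rw [this, hD, hn]
  rw [mk_eq_zero_iff', isPrincipal_iff_divOf] at h1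
  obtain ⟨f, hf, h2⟩ := h1
  refine ⟨f, hf, ?_⟩
  rw [← h2, ← hDE]
  rfl

variable (P₀ y) in
theorem exists_isEffRep_ge : ∃ c : ℤ, ∀ m : ℕ, c ≤ m →
    ∃ E : Divisor K F, IsEffRep P₀ y E ∧ Divisor.degree E = m := by
  refine ⟨genusFF K F, fun m hm => ?_⟩
  obtain ⟨D, hD⟩ := Pic0.mk_surjective y
  have hdeg : Divisor.degree ((D : Divisor K F) + Finsupp.single P₀ (m : ℤ)) = m := by
    rw [map_add, Divisor.mem_degZero.1 D.2, Divisor.degree_single, Deuring.deg_eq_one, zero_add]
    simp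
  have h1 := riemann_ineq ((D : Divisor K F) + Finsupp.single P₀ (m : ℤ))
  rw [hdeg] at h1
  obtain ⟨f, hf, hf0⟩ := exists_ne_zero_of_finrank_pos
    (D := (D : Divisor K F) + Finsupp.single P₀ (m : ℤ)) (by omega)
  have hdeg' : Divisor.degree ((D : Divisor K F) + Finsupp.single P₀ (m : ℤ) + divOf f) = m := by
    rw [map_add, hdeg, degree_divOf, add_zero]
  refine ⟨(D : Divisor K F) + Finsupp.single P₀ (m : ℤ) + divOf f,
    ⟨(mem_rr_iff_divOf hf0).1 hf, D + ⟨divOf f, divOf_mem_degZero f⟩, ?_, ?_⟩, hdeg'⟩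
  · rw [← hD, mk_eq_mk_iff, isPrincipal_iff_divOf]
    exact ⟨f, hf0, by simp⟩
  · rw [hdeg', AddSubgroup.coe_add]
    simp only
    abel

variable (P₀ y) in
theorem exists_isEffRep : ∃ E : Divisor K F, IsEffRep P₀ y E := by
  obtain ⟨c, hc⟩ := exists_isEffRep_ge P₀ y
  obtain ⟨E, hE, -⟩ := hc c.toNat (Int.self_le_toNat c)
  exact ⟨E, hE⟩

omit [IsFF K F] [IsAlgClosed K] in
theorem IsEffRep.smul (g : SemilinearAut K F) (hg : g • P₀ = P₀) (h : IsEffRep P₀ y E) :
    IsEffRep P₀ (g • y) (g • E) := by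
  obtain ⟨hE, D, hD, hDE⟩ := h
  refine ⟨?_, SemilinearAut.degZeroSMulHom g D, ?_, ?_⟩
  · rw [Finsupp.le_def]
    intro v
    rw [SemilinearAut.divisor_smul_apply]
    exact Finsupp.le_def.1 hE _
  · rw [← SemilinearAut.pic0_smul_mk, hD]
  · rw [SemilinearAut.coe_degZeroSMulHom, hDE, smul_sub, SemilinearAut.degree_smul,
      SemilinearAut.smul_single, hg]

/-- An effective representative of minimal degree. -/
def IsMinEffRep (P₀ : Place K F) (y : Pic0 K F) (E : Divisor K F) : Prop :=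
  IsEffRep P₀ y E ∧ ∀ E', IsEffRep P₀ y E' → Divisor.degree E ≤ Divisor.degree E'

variable (P₀ y) in
theorem exists_isMinEffRep : ∃ E : Divisor K F, IsMinEffRep P₀ y E := by
  classical
  obtain ⟨E₀, hE₀⟩ := exists_isEffRep P₀ y
  have hex : ∃ d : ℕ, ∃ E : Divisor K F, IsEffRep P₀ y E ∧ Divisor.degree E = d := by
    refine ⟨(Divisor.degree E₀).toNat, E₀, hE₀, ?_⟩
    rw [Int.toNat_of_nonneg (degree_nonneg hE₀.1)]
  obtain ⟨E, hE, hd⟩ := Nat.find_spec hex
  refine ⟨E, hE, fun E' hE' => ?_⟩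
  have h1 := Nat.find_min' hex ⟨E', hE', (Int.toNat_of_nonneg (degree_nonneg hE'.1)).symm⟩
  rw [hd]
  have h2 := Int.toNat_of_nonneg (degree_nonneg hE'.1)
  omega

theorem IsMinEffRep.apply_eq_zero (h : IsMinEffRep P₀ y E) : E P₀ = 0 := by
  classical
  by_contra hne
  have h0 : 0 ≤ E P₀ := Finsupp.le_def.1 h.1.1 P₀
  have h1 : 0 < E P₀ := lt_of_le_of_ne h0 (Ne.symm hne)
  have hdeg : Divisor.degree (E - Finsupp.single P₀ 1) = Divisor.degree E - 1 := by
    rw [map_sub, Divisor.degree_single, Deuring.deg_eq_one]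
    simp
  have h2 : IsEffRep P₀ y (E - Finsupp.single P₀ 1) := by
    obtain ⟨hE, D, hD, hDE⟩ := h.1
    refine ⟨?_, D, hD, ?_⟩
    · rw [Finsupp.le_def]
      intro v
      rw [Finsupp.zero_apply, Finsupp.sub_apply, Finsupp.single_apply]
      split_ifs with hv
      · rw [← hv]; omega
      · have := Finsupp.le_def.1 hE v
        rw [Finsupp.zero_apply] at this
        omega
    · rw [hdeg, hDE, Finsupp.single_sub]
      abel
  have h3 := h.2 _ h2
  rw [hdeg] at h3
  omega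

/-- Uniqueness of the minimal effective representative. -/
theorem IsMinEffRep.unique (h : IsMinEffRep P₀ y E) (h' : IsMinEffRep P₀ y E') : E = E' := by
  classical
  have hdeg : Divisor.degree E = Divisor.degree E' :=
    le_antisymm (h.2 _ h'.1) (h'.2 _ h.1)
  obtain ⟨f, hf, hff⟩ := h.1.exists_divOf h'.1
  rw [hdeg] at hff
  have hfE : E = E' + divOf f := by
    rw [← hff]; abel
  -- `f` is regular at `P₀`
  have hreg : f ∈ P₀.toValuationSubring := by
    refine S27C.mem_of_ord_nonneg ?_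
    have h1 := congrArg (fun D : Divisor K F => D P₀) hfE
    simp only [Finsupp.add_apply, divOf_apply] at h1
    rw [h.apply_eq_zero, h'.apply_eq_zero] at h1
    omega
  by_cases hg : f = algebraMap K F (val P₀ f)
  · rw [hfE, hg, divOf_algebraMap, add_zero]
  · exfalso
    have hg0 : f - algebraMap K F (val P₀ f) ≠ 0 := sub_ne_zero.2 hg
    have hpos : 0 < P₀.ord (f - algebraMap K F (val P₀ f)) :=
      (ord_pos_of_val_eq hreg _ rfl).resolve_left hg
    have hmem : f - algebraMap K F (val P₀ f) ∈ riemannRochSpace E' := by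
      refine Submodule.sub_mem _ ?_ ?_
      · rw [mem_rr_iff_divOf hf, ← hfE]
        exact h.1.1
      · rw [Algebra.algebraMap_eq_smul_one]
        exact Submodule.smul_mem _ _ (Deuring.one_mem_rr h'.1.1)
    have h2 := h'.1.add_divOf hg0 ((mem_rr_iff_divOf hg0).1 hmem)
    have hdeg2 : Divisor.degree (E' + divOf (f - algebraMap K F (val P₀ f))) =
        Divisor.degree E' := by
      rw [map_add, degree_divOf, add_zero]
    have h3 : IsMinEffRep P₀ y (E' + divOf (f - algebraMap K F (val P₀ f))) :=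
      ⟨h2, fun E'' hE'' => by rw [hdeg2]; exact h'.2 _ hE''⟩
    have h4 := h3.apply_eq_zero
    rw [Finsupp.add_apply, h'.apply_eq_zero, divOf_apply, zero_add] at h4
    omega

omit [IsFF K F] [IsAlgClosed K] in
theorem IsMinEffRep.smul (g : SemilinearAut K F) (hg : g • P₀ = P₀) (h : IsMinEffRep P₀ y E) :
    IsMinEffRep P₀ (g • y) (g • E) := by
  refine ⟨h.1.smul g hg, fun E' hE' => ?_⟩
  have hg' : g⁻¹ • P₀ = P₀ := by
    rw [inv_smul_eq_iff, hg]
  have h1 := hE'.smul g⁻¹ hg'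
  rw [inv_smul_smul] at h1
  have h2 := h.2 _ h1
  rwa [SemilinearAut.degree_smul] at h2 ⊢

end Fermat.Agent.FlatJ
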