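import Fermat.Agent.FlatJ.Integrality
import Fermat.Agent.WeilPairing.Nondeg
import Fermat.Agent.BaseChangeFF.Divisible

/-!
Flatness of the torsion of `Pic⁰` from good reduction.
-/

set_option autoImplicit false
set_option linter.unusedSectionVars false

noncomputable section

open AlgebraicCurve Module GaloisRep

namespace Fermat.Agent.FlatJ

open Fermat.Agent.FunField Fermat.Agent.FunField.PlaceLemmas Fermat.Agent.S27C
  Fermat.Agent.TorsInj Fermat.Agent.Deuring Fermat.Agent.HopfOrder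

attribute [local instance] Fermat.Agent.WeilPairing.isCurveOver

section Ev

variable {K F : Type*} [Field K] [Field F] [Algebra K F] [IsAlgClosed K] [IsFF K F]

theorem coe_ev {f : F} (hf : f ≠ 0) {D : Divisor K F} (h : Fermat.Agent.WeilPairing.Dis f D) :
    (Fermat.Agent.WeilPairing.ev f D : K) = evalDiv f D := by
  unfold Fermat.Agent.WeilPairing.ev evalDiv
  rw [Finsupp.prod, Finsupp.prod, Units.coe_prod]
  refine Finset.prod_congr rfl fun v hv => ?_
  rw [Units.val_zpow_eq_zpow_val,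
    Fermat.Agent.WeilPairing.coe_uval hf (h v (Finsupp.mem_support_iff.1 hv))]

theorem coe_weil {n : ℕ} {x y : Pic0 K F} (D E : Divisor.degZero (K := K) (F := F))
    {f g : F} (hD : Pic0.mk D = x) (hE : Pic0.mk E = y) (hf0 : f ≠ 0) (hg0 : g ≠ 0)
    (hf : (divOf f : Divisor K F) = n • (D : Divisor K F))
    (hg : (divOf g : Divisor K F) = n • (E : Divisor K F))
    (hdis : ∀ v, (D : Divisor K F) v = 0 ∨ (E : Divisor K F) v = 0) :
    (Fermat.Agent.WeilPairing.weil n x y : K) =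
      evalDiv f (E : Divisor K F) / evalDiv g (D : Divisor K F) := by
  subst hD hE
  rw [Fermat.Agent.WeilPairing.weil_eq_div D E hf0 hg0 hf hg hdis, Units.val_div_eq_div_val,
    coe_ev hf0 (Fermat.Agent.WeilPairing.dis_of_divOf_eq hf hdis),
    coe_ev hg0 (Fermat.Agent.WeilPairing.dis_of_divOf_eq' hg hdis)]

end Ev

/-- Good reduction data at all places over `ℓ`. -/
structure GoodAt (ℓ : ℕ) (F : Type) [Field F] [Algebra Qb F] [IsFF Qb F]
    (ρ : GQ →* SemilinearAut Qb F) (P₀ : Place Qb F) (A : ValuationSubring Qb) where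
  k : Type
  F₁ : Type
  [fk : Field k]
  [fF₁ : Field F₁]
  [alg : Algebra k F₁]
  [ff : IsFF k F₁]
  [ac : IsAlgClosed k]
  [cp : CharP k ℓ]
  𝔇 : Data Qb k F F₁
  r : Place Qb F → Place k F₁
  hA : 𝔇.A = A
  full : 𝔇.IsFullRed r
  hfin : ∀ a : k, ∃ s, 0 < s ∧ a ^ (ℓ ^ s) = a
  basis : ∀ m : ℕ, ∃ u : Fin (finrank Qb (riemannRochSpace (Finsupp.single P₀ (m : ℤ)))) → 𝔇.O,
      (∀ i, ((u i : 𝔇.O) : F) ∈ riemannRochSpace (Finsupp.single P₀ (m : ℤ))) ∧
      LinearIndependent k (fun i => 𝔇.res (u i)) ∧ ∀ (σ : GQ) i, ρ σ • ((u i : 𝔇.O) : F) = u i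

attribute [instance] GoodAt.fk GoodAt.fF₁ GoodAt.alg GoodAt.ff GoodAt.ac GoodAt.cp

theorem isFlatMod_torsion {ℓ : ℕ} [hℓ : Fact ℓ.Prime] {F : Type} [Field F] [Algebra Qb F]
    [IsFF Qb F] (ρ : GQ →* SemilinearAut Qb F)
    (hρ : ∀ σ a, SemilinearAut.baseAut (ρ σ) a = σ a) {P₀ : Place Qb F}
    (hP₀ : ∀ σ, ρ σ • P₀ = P₀)
    (hgood : ∀ A : ValuationSubring Qb, A.LiesOverPrime ℓ → Nonempty (GoodAt ℓ F ρ P₀ A))
    {n : ℕ} (hn0 : n ≠ 0) {M : Type} [AddCommGroup M] [DistribMulAction GQ M] [Finite M]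
    (hM : IsContAction ℚ (AlgebraicClosure ℚ) M)
    (cls : M →+ Pic0 Qb F) (hcls : ∀ (σ : GQ) y, cls (σ • y) = ρ σ • cls y)
    (hinj : Function.Injective cls) (hn : ∀ y, n • cls y = 0)
    (hsurj : ∀ c : Pic0 Qb F, n • c = 0 → ∃ y, cls y = c) : IsFlatMod ℓ M := by
  refine isFlatMod_of_pairing ℓ hM (fun x y => (Fermat.Agent.WeilPairing.weil n (cls x) (cls y) : Qb))
    ?_ ?_ ?_ ?_ ?_ ?_
  · intro x x' y
    rw [map_add, Fermat.Agent.WeilPairing.weil_add_left (hn x) (hn x') (hn y), Units.val_mul]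
  · intro x y y'
    rw [map_add, Fermat.Agent.WeilPairing.weil_add_right (hn x) (hn y) (hn y'), Units.val_mul]
  · intro σ x y
    rw [hcls, hcls, Fermat.Agent.WeilPairing.weil_smul (ρ σ) (hn x) (hn y)]
    exact hρ σ _
  · intro x y
    exact Units.ne_zero _
  · intro x hx
    apply hinj
    rw [map_zero]
    refine Fermat.Agent.WeilPairing.weil_nondeg (n := n) (by exact_mod_cast hn0)
      (fun F' _ _ _ c => Fermat.Agent.BaseChangeFF.pic0_divisible Qb F' n
        (Nat.pos_of_ne_zero hn0) c) (hn x) ?_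
    intro c hc
    obtain ⟨y, rfl⟩ := hsurj c hc
    apply Units.ext
    exact hx y
  · intro x A hA
    obtain ⟨G⟩ := hgood A hA
    have h1 : G.𝔇.A.LiesOverPrime ℓ := by rw [G.hA]; exact hA
    have h2 := mem_locRing_of_pairing ρ hρ hP₀ G.full h1 G.basis G.hfin cls hcls hn (cls x)
      (hn x) (fun y => (Fermat.Agent.WeilPairing.weil n (cls x) (cls y) : Qb))
      (fun y Dx Dy fx fy hDx hDy hfx hfy hdx hdy hdis =>
        coe_weil Dx Dy hDx hDy hfx hfy hdx hdy hdis)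
    rw [G.hA] at h2
    exact h2

end Fermat.Agent.FlatJ
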