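import Fermat.Agent.FlatJ.Misc

/-!
Special functions and divisors whose reductions avoid a finite set of places.
-/

set_option autoImplicit false
set_option linter.unusedSectionVars false

noncomputable section

open AlgebraicCurve Module

namespace Fermat.Agent.FlatJ

open Fermat.Agent.FunField Fermat.Agent.FunField.PlaceLemmas Fermat.Agent.S27C
  Fermat.Agent.TorsInj Fermat.Agent.Deuring

attribute [local instance] Fermat.Agent.WeilPairing.isCurveOver

variable {L k F F₁ : Type*} [Field L] [Field k] [Field F] [Field F₁] [Algebra L F]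
  [Algebra k F₁] [IsFF L F] [IsFF k F₁] [IsAlgClosed L] [IsAlgClosed k]
  {𝔇 : Data L k F F₁} {r : Place L F → Place k F₁}

theorem mapDomain_divOf (hr : 𝔇.IsRed r) {f : 𝔇.O} (hf : 𝔇.res f ≠ 0) :
    Finsupp.mapDomain r (divOf (f : F) : Divisor L F) = divOf (𝔇.res f) := by
  ext Q
  rw [divOf_apply]
  exact hr.div f hf _ (fun P => divOf_apply _ _) Q

/-- Effective representatives of a class whose reduction avoids a finite set of places. -/
theorem exists_avoiding (hr : 𝔇.IsFullRed r) (P₀ : Place L F) (x : Pic0 L F) :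
    ∃ c : ℤ, ∀ m : ℕ, c ≤ m → ∀ Z : Finset (Place k F₁), Z.Nonempty →
      ∃ E : Divisor L F, IsEffRep P₀ x E ∧ Divisor.degree E = m ∧
        ∀ z ∈ Z, Finsupp.mapDomain r E z = 0 := by
  classical
  obtain ⟨c₁, hc₁⟩ := hr.rr
  obtain ⟨c₂, hc₂⟩ := Fermat.Agent.TorsInj.exists_isPoleDiv_rr (K := k) (F := F₁)
  refine ⟨max c₁ c₂, fun m hm Z hZ => ?_⟩
  obtain ⟨D, hD⟩ := Pic0.mk_surjective x
  set H : Divisor L F := (D : Divisor L F) + Finsupp.single P₀ (m : ℤ) with hH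
  have hdeg : Divisor.degree H = m := by
    rw [hH, map_add, Divisor.mem_degZero.1 D.2, Divisor.degree_single, Deuring.deg_eq_one,
      zero_add]
    simp
  have hdeg' : Divisor.degree (Finsupp.mapDomain r H) = m := by
    rw [Fermat.Agent.TorsInj.degree_mapDomain', hdeg]
  obtain ⟨fb, hfb, hfb0, hfbZ⟩ := (hc₂ (Finsupp.mapDomain r H)
    (by rw [hdeg']; exact (le_max_right _ _).trans hm)).exists_generic Z hZ
  rw [← hc₁ H (by rw [hdeg]; exact (le_max_left _ _).trans hm)] at hfb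
  obtain ⟨f, hf, rfl⟩ := hfb
  have hf0 : (f : F) ≠ 0 := 𝔇.coe_ne_zero_of_res_ne_zero hfb0
  have hdegE : Divisor.degree (H + divOf (f : F)) = m := by
    rw [map_add, hdeg, degree_divOf, add_zero]
  refine ⟨H + divOf (f : F), ⟨(mem_rr_iff_divOf hf0).1 hf,
    D + ⟨divOf (f : F), divOf_mem_degZero _⟩, ?_, ?_⟩, hdegE, ?_⟩
  · rw [← hD, mk_eq_mk_iff, isPrincipal_iff_divOf]
    exact ⟨f, hf0, by simp⟩
  · rw [hdegE, AddSubgroup.coe_add, hH]
    simp only
    abel
  · intro z hz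
    rw [Finsupp.mapDomain_add, mapDomain_divOf hr.toIsRed hfb0, Finsupp.add_apply, divOf_apply,
      hfbZ z hz]
    ring

/-- An invariant function with a pole only at `P₀` whose reduction has no zeros in a given finite
set. -/
theorem exists_special (hr : 𝔇.IsFullRed r) (P₀ : Place L F) {G : Type*} [Group G]
    (ρ : G →* SemilinearAut L F)
    (hbasis : ∀ m : ℕ, ∃ u : Fin (finrank L (riemannRochSpace (Finsupp.single P₀ (m : ℤ)))) → 𝔇.O,
      (∀ i, ((u i : 𝔇.O) : F) ∈ riemannRochSpace (Finsupp.single P₀ (m : ℤ))) ∧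
      LinearIndependent k (fun i => 𝔇.res (u i)) ∧ ∀ (σ : G) i, ρ σ • ((u i : 𝔇.O) : F) = u i)
    (ℓ : ℕ) [Fact ℓ.Prime] [CharP k ℓ] (hfin : ∀ a : k, ∃ s, 0 < s ∧ a ^ (ℓ ^ s) = a)
    (Z : Finset (Place k F₁)) (B : ℕ) :
    ∃ m : ℕ, B ≤ m ∧ ∃ w : 𝔇.O, (∀ σ : G, ρ σ • (w : F) = w) ∧
      (w : F) ∈ riemannRochSpace (Finsupp.single P₀ (m : ℤ)) ∧ 𝔇.res w ≠ 0 ∧
      (r P₀).ord (𝔇.res w) = -m ∧ ∀ z ∈ Z, z ≠ r P₀ → z.ord (𝔇.res w) = 0 := by
  classical
  obtain ⟨c₁, hc₁⟩ := hr.rr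
  obtain ⟨c₂, hc₂⟩ := Fermat.Agent.TorsInj.exists_isPoleDiv_rr (K := k) (F := F₁)
  obtain ⟨m₀, hm₀⟩ : ∃ m₀ : ℕ, max (max c₁ c₂) 1 ≤ m₀ := ⟨_, Int.self_le_toNat _⟩
  have h1 : c₁ ≤ m₀ := ((le_max_left _ _).trans (le_max_left _ _)).trans hm₀
  have h2 : c₂ ≤ m₀ := ((le_max_right _ _).trans (le_max_left _ _)).trans hm₀
  have h3 : (1 : ℤ) ≤ m₀ := (le_max_right _ _).trans hm₀
  obtain ⟨u, hu, hli, hinv⟩ := hbasis m₀
  have hdeg : Divisor.degree (Finsupp.single P₀ (m₀ : ℤ) : Divisor L F) = m₀ := by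
    rw [Divisor.degree_single, Deuring.deg_eq_one]; simp
  have hdeg' : Divisor.degree (Finsupp.single (r P₀) (m₀ : ℤ) : Divisor k F₁) = m₀ := by
    rw [Divisor.degree_single, Deuring.deg_eq_one]; simp
  have hred := hc₁ (Finsupp.single P₀ (m₀ : ℤ)) (by rw [hdeg]; exact h1)
  rw [Finsupp.mapDomain_single] at hred
  obtain ⟨fb, hfb, hfb0, hfbord⟩ := (hc₂ (Finsupp.single (r P₀) (m₀ : ℤ))
    (by rw [hdeg']; exact h2)).attained (r P₀)
  rw [Finsupp.single_eq_same] at hfbord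
  -- some basis element has the maximal pole order
  obtain ⟨i, hi0, hi⟩ : ∃ i, 𝔇.res (u i) ≠ 0 ∧ (r P₀).ord (𝔇.res (u i)) = -m₀ := by
    by_contra hcon
    push Not at hcon
    have hmem : ∀ i, 𝔇.res (u i) ∈
        riemannRochSpace (Finsupp.single (r P₀) ((m₀ : ℤ) - 1) : Divisor k F₁) := by
      intro i
      rw [Fermat.Agent.Deuring.mem_rr_of_ne (hli.ne_zero i)]
      intro v
      have h4 : 𝔇.res (u i) ∈ riemannRochSpace (Finsupp.single (r P₀) (m₀ : ℤ) : Divisor k F₁) := by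
        rw [← hred]; exact ⟨u i, hu i, rfl⟩
      have h5 := (Fermat.Agent.Deuring.mem_rr_of_ne (hli.ne_zero i)).1 h4 v
      by_cases hv : r P₀ = v
      · subst hv
        have h6 := hcon i (hli.ne_zero i)
        rw [Finsupp.single_eq_same] at h5 ⊢
        omega
      · rw [Finsupp.single_eq_of_ne' hv] at h5 ⊢
        exact h5
    rw [← hred] at hfb
    obtain ⟨f, hf, hff⟩ := hfb
    obtain ⟨c, hc⟩ := exists_coeff_int 𝔇 u hu hli f hf
    have h7 : fb ∈ riemannRochSpace (Finsupp.single (r P₀) ((m₀ : ℤ) - 1) : Divisor k F₁) := by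
      rw [← hff, hc, map_sum]
      refine Submodule.sum_mem _ fun i _ => ?_
      rw [map_mul, 𝔇.res_cst, ← Algebra.smul_def]
      exact Submodule.smul_mem _ _ (hmem i)
    have h8 := (Fermat.Agent.Deuring.mem_rr_of_ne hfb0).1 h7 (r P₀)
    rw [Finsupp.single_eq_same, hfbord] at h8
    omega
  set t := u i with ht
  -- a common exponent
  have htmem : 𝔇.res t ∈ riemannRochSpace (Finsupp.single (r P₀) (m₀ : ℤ) : Divisor k F₁) := by
    rw [← hred]; exact ⟨t, hu i, rfl⟩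
  have htz : ∀ z : Place k F₁, z ≠ r P₀ → 𝔇.res t ∈ z.toValuationSubring := by
    intro z hz
    refine S27C.mem_of_ord_nonneg ?_
    have := (Fermat.Agent.Deuring.mem_rr_of_ne hi0).1 htmem z
    rwa [Finsupp.single_eq_of_ne hz, neg_zero] at this
  choose s hs0 hs using fun z : Place k F₁ => hfin (val z (𝔇.res t))
  set S : ℕ := (∏ z ∈ Z, s z) * (B + 1) with hS
  have hSpos : 0 < S := Nat.mul_pos (Finset.prod_pos fun z _ => hs0 z) (Nat.succ_pos _)
  have hpow : ∀ (a : k) (s j : ℕ), a ^ (ℓ ^ s) = a → a ^ (ℓ ^ (s * j)) = a := by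
    intro a s j h
    induction j with
    | zero => simp
    | succ j ih => rw [Nat.mul_succ, pow_add, pow_mul, ih, h]
  have hSz : ∀ z ∈ Z, (val z (𝔇.res t)) ^ (ℓ ^ S) = val z (𝔇.res t) := by
    intro z hz
    obtain ⟨j, hj⟩ := Finset.dvd_prod_of_mem s hz
    rw [hS, hj, mul_assoc]
    exact hpow _ _ _ (hs z)
  set q : ℕ := ℓ ^ S with hq
  have hℓ1 : 1 < ℓ := (Fact.out : ℓ.Prime).one_lt
  have hqS : S < q := Nat.lt_pow_self hℓ1
  have hq2 : 2 ≤ q := by omega
  have hBS : B ≤ S := by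
    have h5 : 1 ≤ ∏ z ∈ Z, s z := Finset.prod_pos fun z _ => hs0 z
    calc B ≤ 1 * (B + 1) := by omega
      _ ≤ S := Nat.mul_le_mul_right _ h5
  set w : 𝔇.O := t ^ q + (1 - t) with hw
  have hresw : 𝔇.res w = (𝔇.res t) ^ q + (1 - 𝔇.res t) := by
    rw [hw, map_add, map_pow, map_sub, map_one]
  have hordq : (r P₀).ord ((𝔇.res t) ^ q) = -((q * m₀ : ℕ) : ℤ) := by
    rw [PlaceLemmas.ord_pow, hi]
    push_cast
    ring
  have hlt : 1 - 𝔇.res t = 0 ∨ (r P₀).ord ((𝔇.res t) ^ q) < (r P₀).ord (1 - 𝔇.res t) := by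
    by_cases h0 : 1 - 𝔇.res t = 0
    · exact Or.inl h0
    · right
      have h5 : 1 - 𝔇.res t ∈ riemannRochSpace (Finsupp.single (r P₀) (m₀ : ℤ) : Divisor k F₁) := by
        refine Submodule.sub_mem _ (Deuring.one_mem_rr ?_) htmem
        exact Deuring.single_nonneg _ (by omega)
      have h6 := (Fermat.Agent.Deuring.mem_rr_of_ne h0).1 h5 (r P₀)
      rw [Finsupp.single_eq_same] at h6
      rw [hordq]
      refine lt_of_lt_of_le ?_ h6
      have h7 : (m₀ : ℤ) < ((q * m₀ : ℕ) : ℤ) := by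
        push_cast
        have : (2 : ℤ) ≤ q := by exact_mod_cast hq2
        nlinarith
      omega
  have hordw : (r P₀).ord (𝔇.res w) = -((q * m₀ : ℕ) : ℤ) := by
    rw [hresw, PlaceLemmas.ord_add_eq_of_lt (r P₀) (pow_ne_zero _ hi0) hlt, hordq]
  have hw0 : 𝔇.res w ≠ 0 := by
    intro h0
    rw [h0, Place.ord_zero] at hordw
    have h7 : 0 < q * m₀ := Nat.mul_pos (by omega) (by omega)
    omega
  refine ⟨q * m₀, ?_, w, ?_, ?_, hw0, hordw, ?_⟩
  · have : 1 ≤ m₀ := by omega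
    calc B ≤ q := by omega
      _ ≤ q * m₀ := Nat.le_mul_of_pos_right _ (by omega)
  · intro σ
    have h5 : (w : F) = (t : F) ^ q + (1 - (t : F)) := rfl
    rw [h5, smul_add, smul_pow', smul_sub, smul_one, hinv]
  · have h5 : (w : F) = (t : F) ^ q + (1 - (t : F)) := rfl
    have h6 : (q • (Finsupp.single P₀ (m₀ : ℤ)) : Divisor L F) =
        Finsupp.single P₀ ((q * m₀ : ℕ) : ℤ) := by
      rw [Finsupp.smul_single, nsmul_eq_mul]
      push_cast
      rfl
    have h7 : (Finsupp.single P₀ (m₀ : ℤ) : Divisor L F) ≤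
        Finsupp.single P₀ ((q * m₀ : ℕ) : ℤ) := by
      rw [Finsupp.le_def]
      intro v
      rw [Finsupp.single_apply, Finsupp.single_apply]
      split_ifs
      · exact_mod_cast Nat.le_mul_of_pos_left _ (by omega)
      · exact le_rfl
    rw [h5]
    refine Submodule.add_mem _ ?_ (Submodule.sub_mem _ (Deuring.one_mem_rr ?_)
      (Deuring.rr_mono h7 (hu i)))
    · rw [← h6]
      exact Deuring.pow_mem_rr (hu i) q
    · exact Deuring.single_nonneg _ (by positivity)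
  · intro z hz hzP
    have h5 := htz z hzP
    have h6 : 𝔇.res w ∈ z.toValuationSubring := by
      rw [hresw]
      exact add_mem (pow_mem h5 _) (sub_mem (one_mem _) h5)
    have h7 : val z (𝔇.res w) = 1 := by
      rw [hresw, val_add z (pow_mem h5 _) (sub_mem (one_mem _) h5),
        Fermat.Agent.WeilPairing.val_pow z h5, val_sub z (one_mem _) h5, val_one, hSz z hz]
      ring
    exact (ord_eq_zero_of_val_ne z h6 (by rw [h7]; exact one_ne_zero)).2

end Fermat.Agent.FlatJ
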