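import Fermat.Agent.FlatJ.Norms
import Fermat.Agent.FlatJ.Special

/-!
Integrality of the Weil pairing: `y ↦ e(x, y)` is a local integral combination of equivariant
integral functions.
-/

set_option autoImplicit false
set_option linter.unusedSectionVars false

noncomputable section

open AlgebraicCurve Module GaloisRep

namespace Fermat.Agent.FlatJ

open Fermat.Agent.FunField Fermat.Agent.FunField.PlaceLemmas Fermat.Agent.S27C
  Fermat.Agent.TorsInj Fermat.Agent.Deuring Fermat.Agent.HopfOrder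

attribute [local instance] Fermat.Agent.WeilPairing.isCurveOver

variable {ℓ : ℕ} [hℓ : Fact ℓ.Prime] {F : Type} [Field F] [Algebra Qb F] [IsFF Qb F]
  {k F₁ : Type} [Field k] [Field F₁] [Algebra k F₁] [IsFF k F₁] [IsAlgClosed k]
  {𝔇 : Data Qb k F F₁} {r : Place Qb F → Place k F₁}

theorem res_inv {f : 𝔇.O} (hf : 𝔇.res f ≠ 0) : ∃ g : 𝔇.O, f * g = 1 ∧ 𝔇.res g ≠ 0 := by
  obtain ⟨g, hg⟩ := (𝔇.isUnit_of_res_ne_zero hf).exists_right_inv
  refine ⟨g, hg, fun h0 => ?_⟩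
  have := congrArg 𝔇.res hg
  rw [map_mul, h0, mul_zero, map_one] at this
  exact zero_ne_one this

/-- A combination with unit content has nonzero residue. -/
theorem res_sum_ne_zero {ι : Type} [Fintype ι] (u : ι → 𝔇.O)
    (hli : LinearIndependent k (fun i => 𝔇.res (u i))) (b t : ι → 𝔇.A)
    (h : ∑ i, t i * b i = 1) : 𝔇.res (∑ i, 𝔇.cst (b i) * u i) ≠ 0 := by
  intro h0
  rw [map_sum] at h0
  simp only [map_mul, 𝔇.res_cst, ← Algebra.smul_def] at h0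
  have h1 := Fintype.linearIndependent_iff.1 hli _ h0
  have h2 := congrArg 𝔇.π h
  rw [map_sum, map_one] at h2
  rw [Finset.sum_eq_zero fun i _ => by rw [map_mul, h1 i, mul_zero]] at h2
  exact zero_ne_one h2

theorem coe_sum_cst {ι : Type} [Fintype ι] (u : ι → 𝔇.O) (b : ι → 𝔇.A) :
    ((∑ i, 𝔇.cst (b i) * u i : 𝔇.O) : F) = ∑ i, (b i : Qb) • ((u i : 𝔇.O) : F) := by
  push_cast
  refine Finset.sum_congr rfl fun i _ => ?_
  rw [Algebra.smul_def]
  rfl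

variable (ρ : GQ →* SemilinearAut Qb F) (hρ : ∀ σ a, SemilinearAut.baseAut (ρ σ) a = σ a)
  {P₀ : Place Qb F} (hP₀ : ∀ σ, ρ σ • P₀ = P₀)

include hρ hP₀ in
theorem mem_locRing_of_pairing (hr : 𝔇.IsFullRed r) (hA : 𝔇.A.LiesOverPrime ℓ)
    (hbasis : ∀ m : ℕ, ∃ u : Fin (finrank Qb (riemannRochSpace (Finsupp.single P₀ (m : ℤ)))) → 𝔇.O,
      (∀ i, ((u i : 𝔇.O) : F) ∈ riemannRochSpace (Finsupp.single P₀ (m : ℤ))) ∧
      LinearIndependent k (fun i => 𝔇.res (u i)) ∧ ∀ (σ : GQ) i, ρ σ • ((u i : 𝔇.O) : F) = u i)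
    [CharP k ℓ] (hfin : ∀ a : k, ∃ s, 0 < s ∧ a ^ (ℓ ^ s) = a)
    {M : Type} [MulAction GQ M] [Finite M] (cls : M → Pic0 Qb F)
    (hcls : ∀ (σ : GQ) y, cls (σ • y) = ρ σ • cls y)
    {n : ℕ} (hn : ∀ y, n • cls y = 0) (x : Pic0 Qb F) (hx : n • x = 0) (e : M → Qb)
    (he : ∀ y (Dx Dy : Divisor.degZero (K := Qb) (F := F)) (fx fy : F), Pic0.mk Dx = x →
      Pic0.mk Dy = cls y → fx ≠ 0 → fy ≠ 0 → (divOf fx : Divisor Qb F) = n • (Dx : Divisor Qb F) →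
      (divOf fy : Divisor Qb F) = n • (Dy : Divisor Qb F) →
      (∀ P, (Dx : Divisor Qb F) P = 0 ∨ (Dy : Divisor Qb F) P = 0) →
      e y = evalDiv fx (Dy : Divisor Qb F) / evalDiv fy (Dx : Divisor Qb F)) :
    e ∈ locRing (ratLocalizedAt ℓ) M 𝔇.A := by
  classical
  have hfM := Fintype.ofFinite M
  have hAR : ∀ q : ratLocalizedAt ℓ, algebraMap (ratLocalizedAt ℓ) Qb q ∈ 𝔇.A :=
    algebraMap_mem_of_liesOver ℓ 𝔇.A hA
  -- minimal effective representatives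
  choose E hE using fun y => exists_isMinEffRep P₀ (cls y)
  have hE0 : ∀ y, 0 ≤ E y := fun y => (hE y).1.1
  obtain ⟨B₀, hB₀⟩ : ∃ B₀ : ℕ, ∀ y, n * Divisor.degree (E y) ≤ B₀ := by
    refine ⟨∑ y, (n * Divisor.degree (E y)).toNat, fun y => ?_⟩
    refine (Int.self_le_toNat _).trans ?_
    exact_mod_cast Finset.single_le_sum (f := fun y => (n * Divisor.degree (E y)).toNat)
      (fun _ _ => Nat.zero_le _) (Finset.mem_univ y)
  obtain ⟨u, hu, huli, huinv⟩ := hbasis B₀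
  obtain ⟨b, hbe, hbint, hbt, hbdiv⟩ := exists_coeffs (ℓ := ℓ) ρ hρ hP₀ cls hcls hn E hE hB₀
    (fun i => ((u i : 𝔇.O) : F)) (fun f hf => exists_coeff 𝔇 u hu huli hf)
    (𝔇.linearIndependent_of_res u huli) huinv
  have hbA : ∀ y i, b y i ∈ 𝔇.A := fun y i => isIntegral_mem 𝔇.A hAR (hbint y i)
  -- the functions `f_y`
  let fyO : M → 𝔇.O := fun y => ∑ i, 𝔇.cst ⟨b y i, hbA y i⟩ * u i
  have hfyO : ∀ y, ((fyO y : 𝔇.O) : F) = ∑ i, b y i • ((u i : 𝔇.O) : F) := fun y =>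
    coe_sum_cst u _
  have hfyres : ∀ y, 𝔇.res (fyO y) ≠ 0 := by
    intro y
    obtain ⟨t, ht, ht1⟩ := hbt y
    refine res_sum_ne_zero u huli _ (fun i => ⟨t i, isIntegral_mem 𝔇.A hAR (ht i)⟩) ?_
    apply Subtype.ext
    push_cast
    exact ht1
  have hfydiv : ∀ y, (divOf ((fyO y : 𝔇.O) : F) : Divisor Qb F) =
      n • (E y - Finsupp.single P₀ (Divisor.degree (E y))) := fun y => by
    rw [hfyO]; exact hbdiv y
  -- the finite set of bad places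
  set Z : Finset (Place k F₁) :=
    insert (r P₀) ((Finset.univ.biUnion fun y => (E y).support).image r) with hZ
  have hZ0 : r P₀ ∈ Z := Finset.mem_insert_self _ _
  have hZE : ∀ y Q, E y Q ≠ 0 → r Q ∈ Z := fun y Q hQ =>
    Finset.mem_insert_of_mem (Finset.mem_image_of_mem r (Finset.mem_biUnion.2
      ⟨y, Finset.mem_univ y, Finsupp.mem_support_iff.2 hQ⟩))
  obtain ⟨c, hc⟩ := exists_avoiding hr P₀ x
  obtain ⟨m, hcm, w, hwinv, hwmem, hw0, hword, hwZ⟩ :=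
    exists_special hr P₀ ρ hbasis ℓ hfin Z c.toNat
  obtain ⟨Ex, hEx, hExdeg, hExZ⟩ := hc m ((Int.self_le_toNat c).trans (by exact_mod_cast hcm)) Z
    ⟨_, hZ0⟩
  have hwF0 : (w : F) ≠ 0 := 𝔇.coe_ne_zero_of_res_ne_zero hw0
  set Ew : Divisor Qb F := divOf (w : F) + Finsupp.single P₀ (m : ℤ) with hEw
  have hEw0 : 0 ≤ Ew := by
    rw [hEw, add_comm]
    exact (mem_rr_iff_divOf hwF0).1 hwmem
  have hEwdeg : Divisor.degree Ew = m := by
    rw [hEw, map_add, degree_divOf, Divisor.degree_single, Deuring.deg_eq_one]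
    simp
  have hEwZ : ∀ z ∈ Z, Finsupp.mapDomain r Ew z = 0 := by
    intro z hz
    rw [hEw, Finsupp.mapDomain_add, mapDomain_divOf hr.toIsRed hw0, Finsupp.mapDomain_single,
      Finsupp.add_apply, divOf_apply]
    by_cases hzP : z = r P₀
    · subst hzP
      rw [hword, Finsupp.single_eq_same]
      ring
    · rw [hwZ z hz hzP, Finsupp.single_eq_of_ne hzP, add_zero]
  -- points over `Z` are not in `Ex` and `Ew`
  have hnot : ∀ D : Divisor Qb F, 0 ≤ D → (∀ z ∈ Z, Finsupp.mapDomain r D z = 0) →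
      ∀ Q, r Q ∈ Z → D Q = 0 := by
    intro D hD hDZ Q hQ
    have h1 := le_mapDomain_apply r D Q (fun Q' _ => Finsupp.le_def.1 hD Q')
    rw [hDZ _ hQ] at h1
    exact le_antisymm h1 (Finsupp.le_def.1 hD Q)
  have hExQ := hnot Ex hEx.1 hExZ
  have hEwQ := hnot Ew hEw0 hEwZ
  -- the function `α`
  obtain ⟨f₀, hf₀0, hf₀⟩ := hEx.exists_torsion hx
  rw [hExdeg] at hf₀
  obtain ⟨c₁, hc₁, hαO, hαres⟩ := 𝔇.exists_smul_res_ne_zero hf₀0
  set α : 𝔇.O := ⟨c₁ • f₀, hαO⟩ with hα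
  have hαF0 : (α : F) ≠ 0 := 𝔇.coe_ne_zero_of_res_ne_zero hαres
  have hαdiv : (divOf (α : F) : Divisor Qb F) = n • (Ex - Finsupp.single P₀ (m : ℤ)) := by
    rw [hf₀]
    ext v
    rw [divOf_apply, divOf_apply]
    exact ord_smul_of_ne_zero v hc₁ f₀
  obtain ⟨u₁, hu₁, hu₁li, hu₁inv⟩ := hbasis (n * m)
  have hαmem : (α : F) ∈ riemannRochSpace (Finsupp.single P₀ ((n * m : ℕ) : ℤ)) := by
    rw [mem_rr_iff_divOf hαF0, hαdiv, Finsupp.le_def]
    intro v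
    have h1 := Finsupp.le_def.1 hEx.1 v
    rw [Finsupp.zero_apply] at h1 ⊢
    rw [Finsupp.add_apply, Finsupp.smul_apply, Finsupp.sub_apply, nsmul_eq_mul,
      Finsupp.single_apply, Finsupp.single_apply]
    have : (0 : ℤ) ≤ n * Ex v := by positivity
    split_ifs
    · push_cast; linarith
    · linarith
  obtain ⟨a, ha⟩ := exists_coeff_int 𝔇 u₁ hu₁ hu₁li α hαmem
  obtain ⟨w', hww', hw'0⟩ := res_inv hw0
  have hw'F : ((w' : 𝔇.O) : F) = (w : F)⁻¹ := by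
    have h1 : (w : F) * ((w' : 𝔇.O) : F) = 1 := congrArg Subtype.val hww'
    exact (inv_eq_of_mul_eq_one_right h1).symm
  let v : Fin _ → 𝔇.O := fun i => u₁ i * w' ^ n
  have hvF : ∀ i, ((v i : 𝔇.O) : F) = (u₁ i : F) * ((w : F)⁻¹) ^ n := fun i => by
    simp only [v]
    push_cast
    rw [hw'F]
  have hvinv : ∀ (σ : GQ) i, ρ σ • ((v i : 𝔇.O) : F) = v i := by
    intro σ i
    rw [hvF, smul_mul', smul_pow', smul_inv'', hu₁inv, hwinv]
  -- the functions `v i` are regular over `Z`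
  have hvreg : ∀ i Q, r Q ∈ Z → ((v i : 𝔇.O) : F) ∈ Q.toValuationSubring := by
    intro i Q hQ
    by_cases hu0 : ((u₁ i : 𝔇.O) : F) = 0
    · rw [hvF, hu0, zero_mul]
      exact zero_mem _
    refine S27C.mem_of_ord_nonneg ?_
    have h1 := (Fermat.Agent.Deuring.mem_rr_of_ne hu0).1 (hu₁ i) Q
    have h2 := hEwQ Q hQ
    rw [hEw, Finsupp.add_apply, divOf_apply] at h2
    rw [hvF, Q.ord_mul hu0 (pow_ne_zero _ (inv_ne_zero hwF0)), PlaceLemmas.ord_pow, Q.ord_inv]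
    have h3 : Q.ord (w : F) = -(Finsupp.single P₀ (m : ℤ) : Divisor Qb F) Q := by linarith
    rw [h3]
    have h4 : (Finsupp.single P₀ ((n * m : ℕ) : ℤ) : Divisor Qb F) Q =
        n * (Finsupp.single P₀ (m : ℤ) : Divisor Qb F) Q := by
      rw [Finsupp.single_apply, Finsupp.single_apply]
      split_ifs
      · push_cast; ring
      · ring
    rw [h4] at h1
    linarith
  have hvval : ∀ i Q, r Q ∈ Z → val Q ((v i : 𝔇.O) : F) ∈ 𝔇.A := fun i Q hQ =>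
    (val_red hr.toIsRed (v i) Q fun Q' hQ' => hvreg i Q' (by rw [hQ']; exact hQ)).choose
  -- the function `f⁰ = α / w ^ n`
  let f₁ : 𝔇.O := ∑ i, 𝔇.cst (a i) * v i
  have hf₁ : f₁ = α * w' ^ n := by
    simp only [f₁, v]
    rw [ha, Finset.sum_mul]
    exact Finset.sum_congr rfl fun i _ => (mul_assoc _ _ _).symm
  have hf₁F : ((f₁ : 𝔇.O) : F) = (α : F) * ((w : F)⁻¹) ^ n := by
    rw [hf₁]
    push_cast
    rw [hw'F]
  have hf₁res : 𝔇.res f₁ ≠ 0 := by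
    rw [hf₁, map_mul, map_pow]
    exact mul_ne_zero hαres (pow_ne_zero _ hw'0)
  have hf₁F0 : ((f₁ : 𝔇.O) : F) ≠ 0 := 𝔇.coe_ne_zero_of_res_ne_zero hf₁res
  have hf₁div : (divOf ((f₁ : 𝔇.O) : F) : Divisor Qb F) = n • (Ex - Ew) := by
    rw [hf₁F, divOf_mul hαF0 (pow_ne_zero _ (inv_ne_zero hwF0)), divOf_pow, divOf_inv, hαdiv,
      ← nsmul_add]
    congr 1
    rw [hEw]
    abel
  have hf₁reg : ∀ Q, r Q ∈ Z → ((f₁ : 𝔇.O) : F) ∈ Q.toValuationSubring := by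
    intro Q hQ
    simp only [f₁]
    rw [coe_sum_cst]
    refine sum_mem fun i _ => ?_
    rw [Algebra.smul_def]
    exact mul_mem (Q.algebraMap_mem' _) (hvreg i Q hQ)
  have hf₁ord : ∀ Q, r Q ∈ Z → (r Q).ord (𝔇.res f₁) = 0 := by
    intro Q hQ
    rw [← divOf_apply, ← mapDomain_divOf hr.toIsRed hf₁res, hf₁div, mapDomain_nsmul,
      Finsupp.mapDomain_sub, Finsupp.smul_apply, Finsupp.sub_apply, hExZ _ hQ, hEwZ _ hQ]
    simp
  have hf₁val : ∀ Q, r Q ∈ Z → val Q ((f₁ : 𝔇.O) : F) ≠ 0 ∧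
      (val Q ((f₁ : 𝔇.O) : F))⁻¹ ∈ 𝔇.A := fun Q hQ =>
    val_inv_mem hr.toIsRed f₁ Q (fun Q' hQ' => hf₁reg Q' (by rw [hQ']; exact hQ)) hf₁res
      (hf₁ord Q hQ)
  -- normalise at `P₀`
  set c₂ : Qb := (val P₀ ((f₁ : 𝔇.O) : F))⁻¹ with hc₂
  have hc₂0 : c₂ ≠ 0 := inv_ne_zero (hf₁val P₀ hZ0).1
  have hc₂A : c₂ ∈ 𝔇.A := (hf₁val P₀ hZ0).2
  let fx : F := ∑ i, (c₂ * (a i : Qb)) • ((v i : 𝔇.O) : F)
  have hfx : fx = c₂ • ((f₁ : 𝔇.O) : F) := by
    simp only [fx, f₁]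
    rw [coe_sum_cst, Finset.smul_sum]
    exact Finset.sum_congr rfl fun i _ => by rw [smul_smul]
  have hfx0 : fx ≠ 0 := by
    rw [hfx]
    exact smul_ne_zero hc₂0 hf₁F0
  have hfxdiv : (divOf fx : Divisor Qb F) = n • (Ex - Ew) := by
    rw [← hf₁div, hfx]
    ext Q
    rw [divOf_apply, divOf_apply, ord_smul_of_ne_zero Q hc₂0]
  have hfxval : ∀ Q, r Q ∈ Z → val Q fx = c₂ * val Q ((f₁ : 𝔇.O) : F) := by
    intro Q hQ
    rw [hfx, Algebra.smul_def, val_mul Q (Q.algebraMap_mem' _) (hf₁reg Q hQ), val_algebraMap]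
  have hfxval0 : ∀ Q, r Q ∈ Z → val Q fx ≠ 0 := fun Q hQ => by
    rw [hfxval Q hQ]
    exact mul_ne_zero hc₂0 (hf₁val Q hQ).1
  have hfxP₀ : val P₀ fx = 1 := by
    rw [hfxval P₀ hZ0, hc₂, inv_mul_cancel₀ (hf₁val P₀ hZ0).1]
  -- values of `f_y` outside `Z`
  have hrne : ∀ Q, r Q ∉ Z → ∀ Q', r Q' = r Q → Q' ≠ P₀ := by
    rintro Q hQ Q' hQ' rfl
    exact hQ (hQ' ▸ hZ0)
  have hureg : ∀ Q, r Q ∉ Z → ∀ Q', r Q' = r Q → ∀ i,
      ((u i : 𝔇.O) : F) ∈ Q'.toValuationSubring := by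
    intro Q hQ Q' hQ' i
    by_cases hu0 : ((u i : 𝔇.O) : F) = 0
    · rw [hu0]; exact zero_mem _
    refine S27C.mem_of_ord_nonneg ?_
    have h1 := (Fermat.Agent.Deuring.mem_rr_of_ne hu0).1 (hu i) Q'
    rwa [Finsupp.single_eq_of_ne (hrne Q hQ Q' hQ'), neg_zero] at h1
  have huval : ∀ Q, r Q ∉ Z → ∀ i, val Q ((u i : 𝔇.O) : F) ∈ 𝔇.A := fun Q hQ i =>
    (val_red hr.toIsRed (u i) Q fun Q' hQ' => hureg Q hQ Q' hQ' i).choose
  have hfyreg : ∀ y Q, r Q ∉ Z → ∀ Q', r Q' = r Q →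
      ((fyO y : 𝔇.O) : F) ∈ Q'.toValuationSubring := by
    intro y Q hQ Q' hQ'
    rw [hfyO]
    refine sum_mem fun i _ => ?_
    rw [Algebra.smul_def]
    exact mul_mem (Q'.algebraMap_mem' _) (hureg Q hQ Q' hQ' i)
  have hfyord : ∀ y Q, r Q ∉ Z → (r Q).ord (𝔇.res (fyO y)) = 0 := by
    intro y Q hQ
    rw [← divOf_apply, ← mapDomain_divOf hr.toIsRed (hfyres y), hfydiv, mapDomain_nsmul,
      Finsupp.mapDomain_sub, Finsupp.smul_apply, Finsupp.sub_apply, Finsupp.mapDomain_single,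
      Finsupp.single_eq_of_ne (fun h : r Q = r P₀ => hQ (h ▸ hZ0))]
    have h1 : Finsupp.mapDomain r (E y) (r Q) = 0 := by
      by_contra h2
      rw [← Ne, ← Finsupp.mem_support_iff] at h2
      obtain ⟨Q', hQ', hQ''⟩ := Finset.mem_image.1 (Finsupp.mapDomain_support h2)
      exact hQ (hQ'' ▸ hZE y Q' (Finsupp.mem_support_iff.1 hQ'))
    rw [h1]
    simp
  have hfyval : ∀ y Q, r Q ∉ Z → val Q ((fyO y : 𝔇.O) : F) ≠ 0 ∧
      (val Q ((fyO y : 𝔇.O) : F))⁻¹ ∈ 𝔇.A := fun y Q hQ =>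
    val_inv_mem hr.toIsRed (fyO y) Q (fun Q' hQ' => hfyreg y Q hQ Q' hQ') (hfyres y)
      (hfyord y Q hQ)
  have hfysum : ∀ y Q, r Q ∉ Z → val Q ((fyO y : 𝔇.O) : F) =
      ∑ i, val Q ((u i : 𝔇.O) : F) * b y i := by
    intro y Q hQ
    rw [hfyO]
    have h2 : ∀ s : Finset (Fin (finrank Qb (riemannRochSpace
        (Finsupp.single P₀ (B₀ : ℤ) : Divisor Qb F)))),
        (∑ i ∈ s, b y i • ((u i : 𝔇.O) : F)) ∈ Q.toValuationSubring ∧
        val Q (∑ i ∈ s, b y i • ((u i : 𝔇.O) : F)) =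
          ∑ i ∈ s, val Q ((u i : 𝔇.O) : F) * b y i := by
      intro s
      induction s using Finset.induction_on with
      | empty => simp [zero_mem]
      | insert i s hi ih =>
        have h3 : b y i • ((u i : 𝔇.O) : F) ∈ Q.toValuationSubring := by
          rw [Algebra.smul_def]
          exact mul_mem (Q.algebraMap_mem' _) (hureg Q hQ Q rfl i)
        rw [Finset.sum_insert hi, Finset.sum_insert hi]
        refine ⟨add_mem h3 ih.1, ?_⟩
        rw [val_add Q h3 ih.1, ih.2, Algebra.smul_def,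
          val_mul Q (Q.algebraMap_mem' _) (hureg Q hQ Q rfl i), val_algebraMap, mul_comm]
    exact (h2 Finset.univ).2
  have hfyloc : ∀ Q, r Q ∉ Z → (fun y => val Q ((fyO y : 𝔇.O) : F)) ∈
      locRing (ratLocalizedAt ℓ) M 𝔇.A := by
    intro Q hQ
    have h1 : (fun y => val Q ((fyO y : 𝔇.O) : F)) =
        ∑ i, (fun _ => val Q ((u i : 𝔇.O) : F)) * (fun y => b y i) := by
      funext y
      rw [hfysum y Q hQ]
      simp
    rw [h1]
    refine Subalgebra.sum_mem _ fun i _ => Subalgebra.mul_mem _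
      (const_mem_locRing 𝔇.A (huval Q hQ i)) (mem_locRing_of_mem 𝔇.A ?_)
    exact ⟨fun y => hbint y i, fun σ y => hbe σ y i⟩
  -- points of `Ex` and `Ew` are outside `Z`
  have hExr : ∀ Q, Ex Q ≠ 0 → r Q ∉ Z := fun Q hQ h => hQ (hExQ Q h)
  have hEwr : ∀ Q, Ew Q ≠ 0 → r Q ∉ Z := fun Q hQ h => hQ (hEwQ Q h)
  have hdivloc : ∀ D : Divisor Qb F, 0 ≤ D → (∀ Q, D Q ≠ 0 → r Q ∉ Z) →
      (fun y => evalDiv ((fyO y : 𝔇.O) : F) D) ∈ locRing (ratLocalizedAt ℓ) M 𝔇.A := by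
    intro D hD hDr
    have h1 : (fun y => evalDiv ((fyO y : 𝔇.O) : F) D) =
        ∏ Q ∈ D.support, (fun y => val Q ((fyO y : 𝔇.O) : F)) ^ (D Q).toNat := by
      funext y
      rw [evalDiv_eq_prod hD, Finsupp.prod]
      simp
    rw [h1]
    exact Subalgebra.prod_mem _ fun Q hQ => Subalgebra.pow_mem _
      (hfyloc Q (hDr Q (Finsupp.mem_support_iff.1 hQ))) _
  have hdivinv : ∀ D : Divisor Qb F, 0 ≤ D → (∀ Q, D Q ≠ 0 → r Q ∉ Z) → ∀ y,
      evalDiv ((fyO y : 𝔇.O) : F) D ≠ 0 ∧ (evalDiv ((fyO y : 𝔇.O) : F) D)⁻¹ ∈ 𝔇.A := by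
    intro D hD hDr y
    refine ⟨evalDiv_ne_zero _ _ fun Q hQ => (hfyval y Q (hDr Q hQ)).1, ?_⟩
    rw [evalDiv_eq_prod hD, Finsupp.prod, ← Finset.prod_inv_distrib]
    refine prod_mem fun Q hQ => ?_
    rw [← inv_pow]
    exact pow_mem (hfyval y Q (hDr Q (Finsupp.mem_support_iff.1 hQ))).2 _
  -- the value of the pairing
  have hval : e = (fun y => evalDiv fx (E y)) * (fun y => evalDiv ((fyO y : 𝔇.O) : F) Ew) *
      (fun y => (evalDiv ((fyO y : 𝔇.O) : F) Ex)⁻¹) := by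
    funext y
    simp only [Pi.mul_apply]
    obtain ⟨-, Dx', hDx', hDxE⟩ := hEx
    obtain ⟨-, Dy, hDy, hDyE⟩ := (hE y).1
    rw [hExdeg] at hDxE
    have hDxm : Ex - Ew ∈ Divisor.degZero (K := Qb) (F := F) := by
      rw [Divisor.mem_degZero, map_sub, hExdeg, hEwdeg, sub_self]
    have hDxx : Pic0.mk (⟨Ex - Ew, hDxm⟩ : Divisor.degZero (K := Qb) (F := F)) = x := by
      rw [← hDx', mk_eq_mk_iff, isPrincipal_iff_divOf]
      refine ⟨(w : F)⁻¹, inv_ne_zero hwF0, ?_⟩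
      rw [divOf_inv, hDxE]
      change Ex - Ew - (Ex - Finsupp.single P₀ (m : ℤ)) = -divOf (w : F)
      rw [hEw]
      abel
    have h1 := he y ⟨Ex - Ew, hDxm⟩ Dy fx (fyO y : F) hDxx hDy hfx0
      (𝔇.coe_ne_zero_of_res_ne_zero (hfyres y)) hfxdiv (by rw [hfydiv, hDyE]) (by
        intro P
        by_cases hPZ : r P ∈ Z
        · left
          simp only [Finsupp.sub_apply]
          rw [hExQ P hPZ, hEwQ P hPZ, sub_self]
        · right
          have h2 : E y P = 0 := by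
            by_contra h3
            exact hPZ (hZE y P h3)
          rw [hDyE, Finsupp.sub_apply, h2,
            Finsupp.single_eq_of_ne (fun h : P = P₀ => hPZ (h ▸ hZ0)), sub_zero])
    rw [h1, hDyE]
    simp only
    rw [evalDiv_sub fx (E y) _ (by
      intro P hP
      rcases hP with hP | hP
      · exact hfxval0 P (hZE y P hP)
      · have h2 : P = P₀ := by
          by_contra h3
          exact hP (Finsupp.single_eq_of_ne h3)
        rw [h2]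
        exact hfxval0 P₀ hZ0), evalDiv_single, hfxP₀, one_zpow, div_one,
      evalDiv_sub _ Ex Ew (by
        intro P hP
        rcases hP with hP | hP
        · exact (hfyval y P (hExr P hP)).1
        · exact (hfyval y P (hEwr P hP)).1)]
    rw [div_div_eq_mul_div, div_eq_mul_inv]
  rw [hval]
  refine Subalgebra.mul_mem _ (Subalgebra.mul_mem _ ?_ (hdivloc Ew hEw0 hEwr)) ?_
  · exact evalDiv_mem_locRing ρ hρ 𝔇.A hA E hE0
      (minRep_smul ρ hP₀ cls hcls E hE) (fun i => ((v i : 𝔇.O) : F)) hvinv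
      (fun y Q hQ i => hvreg i Q (hZE y Q hQ)) (fun y Q hQ i => hvval i Q (hZE y Q hQ))
      (fun i => c₂ * (a i : Qb)) (fun i => mul_mem hc₂A (a i).2)
  · exact inv_mem_locRing 𝔇.A hAR (hdivloc Ex hEx.1 hExr)
      (fun y => (hdivinv Ex hEx.1 hExr y).1) (fun y => (hdivinv Ex hEx.1 hExr y).2)

end Fermat.Agent.FlatJ
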