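import Fermat.Agent.FlatJ.Assembly
import Fermat.Agent.FlatJ.General

/-!
Rational orthonormal bases for the modular curve.
-/

set_option autoImplicit false
set_option linter.unusedSectionVars false

noncomputable section

open ModularCurve Module AlgebraicCurve GaloisRep

namespace Fermat.Agent.FlatJ

open Fermat.Agent.FunField Fermat.Agent.HopfOrder Fermat.Agent.Deuring Fermat.Agent.Igusa
  Fermat.Agent.S27C

attribute [local instance 2000] lsModule lsSMul

variable (N : ℕ) [NeZero N]

theorem smul_eq_of_coeffEmb {z : modularFunctionFieldBar N} {y : LaurentSeries ℚ}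
    (h : (z : LaurentSeries Qb) = coeffEmb Qb y) (σ : GQ) :
    arithmeticGalois (modularFunctionFieldFull N) σ • z = z := by
  apply Subtype.ext
  rw [coe_arithmeticGalois_smul, h]
  ext n
  rw [coeffMap_coeff, coeffEmb_coeff]
  exact σ.commutes _

theorem exists_basis_bar (A : ValuationSubring Qb) {κ : Type} [Field κ] (π : A →+* κ)
    (m : ℤ) :
    ∃ u : Fin (finrank Qb (riemannRochSpace (Finsupp.single (infN N) m))) →
        gaussVal A π (isTame_bar N),
      (∀ i, ((u i : gaussVal A π (isTame_bar N)) : modularFunctionFieldBar N) ∈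
        riemannRochSpace (Finsupp.single (infN N) m)) ∧
      LinearIndependent κ (fun i => gaussValRes A π (isTame_bar N) (u i)) ∧
      ∀ i, ∃ y : LaurentSeries ℚ,
        (((u i : gaussVal A π (isTame_bar N)) : modularFunctionFieldBar N) :
          LaurentSeries Qb) = coeffEmb Qb y :=
  exists_invariant_orthonormal A π (modularFunctionFieldBar N)
    (isTame_bar N) (riemannRochSpace (Finsupp.single (infN N) m)) (by
      intro σ x hx z hz
      have h1 := smul_mem_rr_inf N m σ hx
      have h2 : z = arithmeticGalois (modularFunctionFieldFull N) σ • x := Subtype.ext hz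
      rw [h2]
      exact h1)
    (fun σ x hx => coeffMap_mem_laurentBaseChange σ hx)

theorem exists_basis_data (A : ValuationSubring Qb) {κ : Type} [Field κ] (π : A →+* κ)
    (m : ℤ) (𝔇 : Data Qb κ (modularFunctionFieldBar N) (modularFunctionFieldFullC κ N))
    (hO : ∀ x, x ∈ 𝔇.O ↔ (x : LaurentSeries Qb) ∈ gaussRing A π)
    (hres : ∀ x : 𝔇.O, (𝔇.res x : LaurentSeries κ) =
      gaussRes A π ⟨((x : modularFunctionFieldBar N) : LaurentSeries Qb), (hO _).1 x.2⟩) :
    ∃ u : Fin (finrank Qb (riemannRochSpace (Finsupp.single (infN N) m))) → 𝔇.O,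
      (∀ i, ((u i : 𝔇.O) : modularFunctionFieldBar N) ∈
        riemannRochSpace (Finsupp.single (infN N) m)) ∧
      LinearIndependent κ (fun i => 𝔇.res (u i)) ∧
      ∀ (σ : GQ) i, arithmeticGalois (modularFunctionFieldFull N) σ •
        ((u i : 𝔇.O) : modularFunctionFieldBar N) = u i := by
  obtain ⟨u, hu, hli, hQ⟩ := exists_basis_bar N A π m
  have hO' : ∀ i, ((u i : gaussVal A π (isTame_bar N)) : modularFunctionFieldBar N) ∈ 𝔇.O :=
    fun i => (hO _).2 ((mem_gaussVal_iff A π (isTame_bar N)).1 (u i).2)
  refine ⟨fun i => ⟨_, hO' i⟩, hu, ?_, fun σ i => ?_⟩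
  · refine LinearIndependent.of_comp (modularFunctionFieldFullC κ N).val.toLinearMap ?_
    have hfun : (fun i => gaussValRes A π (isTame_bar N) (u i)) =
        (modularFunctionFieldFullC κ N).val.toLinearMap ∘ fun i => 𝔇.res ⟨_, hO' i⟩ := by
      funext i
      exact (hres ⟨_, hO' i⟩).symm
    rw [← hfun]
    exact hli
  · obtain ⟨y, hy⟩ := hQ i
    exact smul_eq_of_coeffEmb N hy σ

end Fermat.Agent.FlatJ
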