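import Fermat.Agent.FlatJ.JGood
import Fermat.Agent.BaseChangeFF.Main
import Fermat.Agent.S27C.Torsion

/-!
**The torsion of `J₀(N)` is finite flat at primes not dividing `N`.**
-/

set_option autoImplicit false
set_option linter.unusedSectionVars false

noncomputable section

open ModularCurve Module AlgebraicCurve GaloisRep

namespace Fermat.Agent.FlatJ

open Fermat.Agent.FunField Fermat.Agent.HopfOrder Fermat.Agent.S27C

attribute [local instance] Fermat.Agent.WeilPairing.isCurveOver

section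

variable {K F : Type} [Field K] [Field F] [Algebra K F] [IsFF K F] [IsAlgClosed K] [CharZero K]

theorem finite_torsionBy {n : ℕ} (hn : 0 < n) :
    Finite (Submodule.torsionBy ℤ (Pic0 K F) (n : ℤ)) := by
  have h1 := Fermat.Agent.BaseChangeFF.natCard_torsion_of_complex
    (fun E _ _ _ _ n hn => Fermat.Agent.S27C.natCard_torsion_complex n hn) K F n hn
  have h2 : Nat.card {x : Pic0 K F // (n : ℤ) • x = 0} ≠ 0 := by
    rw [h1]; exact (pow_pos hn _).ne'
  have h3 : Finite {x : Pic0 K F // (n : ℤ) • x = 0} := Nat.finite_of_card_ne_zero h2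
  exact Finite.of_equiv _ (Equiv.subtypeEquivRight fun x =>
    (Submodule.mem_torsionBy_iff (R := ℤ) (n : ℤ) x).symm)

end

theorem isContAction_of_level {M : Type} [MulAction GQ M] [Finite M]
    (h : ∀ x : M, ∃ E : IntermediateField ℚ (AlgebraicClosure ℚ), FiniteDimensional ℚ E ∧
      ∀ σ : GQ, (∀ z ∈ E, σ z = z) → σ • x = x) :
    IsContAction ℚ (AlgebraicClosure ℚ) M := by
  choose E hE hfix using h
  have := Fintype.ofFinite M
  refine ⟨⨆ x, E x, IntermediateField.finiteDimensional_iSup_of_finite, fun σ hσ x => ?_⟩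
  exact hfix x σ fun z hz => hσ z ((le_iSup E x) hz)

variable (N : ℕ) [NeZero N] (ℓ : ℕ) [hℓ : Fact ℓ.Prime]

/-- **The torsion of `J₀(N)` is finite flat at primes not dividing `N`.** -/
theorem isFlatMod_JZero (hℓN : ¬ ℓ ∣ N)
    {n : ℕ} (hn : 0 < n) :
    letI := torsionAction GQ (JZero N) (n : ℤ)
    IsFlatMod ℓ (Submodule.torsionBy ℤ (JZero N) (n : ℤ)) := by
  letI := torsionAction GQ (JZero N) (n : ℤ)
  have hfin : Finite (Submodule.torsionBy ℤ (JZero N) (n : ℤ)) :=
    finite_torsionBy (K := Qb) (F := modularFunctionFieldBar N) hn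
  refine isFlatMod_torsion (ℓ := ℓ) (F := modularFunctionFieldBar N)
    (arithmeticGalois (modularFunctionFieldFull N)) (fun σ a => rfl) (P₀ := infN N)
    (smul_infN N) (fun A hA => exists_goodAt N ℓ hℓN A hA) (n := n) hn.ne' ?_
    (Submodule.torsionBy ℤ (JZero N) (n : ℤ)).subtype.toAddMonoidHom ?_ ?_ ?_ ?_
  · refine isContAction_of_level fun x => ?_
    obtain ⟨E, hE, hfix⟩ := GalJ.level_JZero N (x : JZero N)
    exact ⟨E, hE, fun σ hσ => Subtype.ext (hfix σ hσ)⟩
  · intro σ y
    rfl
  · exact Subtype.val_injective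
  · intro y
    have := (Submodule.mem_torsionBy_iff (R := ℤ) (n : ℤ) (y : JZero N)).1 y.2
    rw [natCast_zsmul] at this
    exact this
  · intro c hc
    refine ⟨⟨c, (Submodule.mem_torsionBy_iff (R := ℤ) (n : ℤ) c).2 ?_⟩, rfl⟩
    rw [natCast_zsmul]
    exact hc

end Fermat.Agent.FlatJ
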