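import Fermat.Agent.FlatJ.Assembly
import Fermat.Agent.FlatJ.General
import Fermat.Agent.FlatJ.JBasis
import Fermat.Agent.Cusps.GenusQb

/-!
Good reduction data for the modular curve `X₀(N)` at places not dividing `N`.
-/

set_option autoImplicit false
set_option linter.unusedSectionVars false

noncomputable section

open ModularCurve Module AlgebraicCurve GaloisRep

namespace Fermat.Agent.FlatJ

open Fermat.Agent.FunField Fermat.Agent.HopfOrder Fermat.Agent.Deuring Fermat.Agent.Igusa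
  Fermat.Agent.S27C

variable (N : ℕ) [NeZero N] (ℓ : ℕ) [hℓ : Fact ℓ.Prime]

theorem exists_data_gen {L : Type} [Field L] (A : ValuationSubring L) (κ : Type) [Field κ]
    (π : A →+* κ) [IsLocalHom π] (hπ : Function.Surjective π) (hNκ : (N : κ) ≠ 0)
    (hNQ : (N : L) ≠ 0) (F : IntermediateField L (LaurentSeries L))
    (hF : F = modularFunctionFieldFullC L N) :
    ∃ 𝔇 : Data L κ F (modularFunctionFieldFullC κ N),
      𝔇.A = A ∧ ∃ (hO : ∀ x, x ∈ 𝔇.O ↔ (x : LaurentSeries L) ∈ gaussRing A π),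
      ∀ x : 𝔇.O, (𝔇.res x : LaurentSeries κ) =
      gaussRes A π ⟨((x : F) : LaurentSeries L), (hO _).1 x.2⟩ := by
  have hpos : 0 < dedekindPsi N := ModDeg.psi_pos (NeZero.ne N)
  exact ⟨fullDataOf A π N hπ hpos (ModDeg.relfinrank_full L N hNQ)
    (ModDeg.relfinrank_full κ N hNκ) hF, fullDataOf_A A π N hπ hpos _ _ hF,
    fun x => mem_fullDataOf_O A π N hπ hpos _ _ hF,
    fun x => fullDataOf_res A π N hπ hpos _ _ hF x⟩

attribute [local instance] Fermat.Agent.WeilPairing.isCurveOver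

theorem genusFF_bar_gen {L : Type} [Field L] (F : IntermediateField L (LaurentSeries L))
    (hF : F = modularFunctionFieldFullC L N) :
    genusFF L F = genusFF L (modularFunctionFieldFullC L N) := by
  subst hF; rfl

theorem genusFF_bar : genusFF Qb (modularFunctionFieldBar N) =
    genusFF Qb (modularFunctionFieldFullC Qb N) :=
  genusFF_bar_gen N _ (modularFunctionFieldBar_eq N)

theorem exists_isFullRed_aux {L κ F F₁ : Type} [Field L] [Field κ] [Field F] [Field F₁]
    [Algebra L F] [Algebra κ F₁] [IsFF L F] [IsFF κ F₁] [IsAlgClosed L] [IsAlgClosed κ]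
    (𝔇 : Data L κ F F₁) (h : genusFF κ F₁ = genusFF L F) : ∃ r, 𝔇.IsFullRed r := by
  refine 𝔇.exists_isFullRed (TorsInj.rrLarge_genusFF (K := L) (F := F)) ?_
  rw [← h]
  exact TorsInj.rrLarge_genusFF (K := κ) (F := F₁)

theorem exists_goodAt_aux
    (A : ValuationSubring Qb) (κ : Type) [Field κ] [IsAlgClosed κ] [CharP κ ℓ]
    (hfin : ∀ a : κ, ∃ s, 0 < s ∧ a ^ (ℓ ^ s) = a) (π : A →+* κ) [IsLocalHom π]
    (hπ : Function.Surjective π) (hNκ : (N : κ) ≠ 0) :
    Nonempty (GoodAt ℓ (modularFunctionFieldBar N)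
      (arithmeticGalois (modularFunctionFieldFull N)) (infN N) A) := by
  have hGE := Fermat.Agent.Cusps.genusFF_eq_Qb A π hπ N hNκ
  obtain ⟨𝔇, hDA, hO, hres⟩ := exists_data_gen N A κ π hπ hNκ
    (Nat.cast_ne_zero.2 (NeZero.ne N)) (modularFunctionFieldBar N) (modularFunctionFieldBar_eq N)
  obtain ⟨r, hr⟩ := exists_isFullRed_aux 𝔇 (hGE.trans (genusFF_bar N).symm)
  exact ⟨⟨κ, modularFunctionFieldFullC κ N, 𝔇, r, hDA, hr,
    hfin, fun m => exists_basis_data N A π m 𝔇 hO hres⟩⟩

theorem exists_goodAt (hℓN : ¬ ℓ ∣ N)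
    (A : ValuationSubring Qb) (hA : A.LiesOverPrime ℓ) :
    Nonempty (GoodAt ℓ (modularFunctionFieldBar N)
      (arithmeticGalois (modularFunctionFieldFull N)) (infN N) A) := by
  have hcp : CharP (IsLocalRing.ResidueField A) ℓ := FrobE.charP_residue hℓ.out hA
  let alg : Algebra (ZMod ℓ) (IsLocalRing.ResidueField A) := ZMod.algebra _ ℓ
  have halg : Algebra.IsAlgebraic (ZMod ℓ) (IsLocalRing.ResidueField A) :=
    FrobE.algebraic_residue hℓ.out hA
  have hac : IsAlgClosed (IsLocalRing.ResidueField A) := isAlgClosed_residueField A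
  exact exists_goodAt_aux N ℓ A (IsLocalRing.ResidueField A) (fun a => exists_pow_eq ℓ a)
    (IsLocalRing.residue A) IsLocalRing.residue_surjective
    (by rw [Ne, CharP.cast_eq_zero_iff (IsLocalRing.ResidueField A) ℓ]; exact hℓN)

end Fermat.Agent.FlatJ
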