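import Fermat.Agent.FlatJ.Coeffs

/-!
Values of functions on equivariant effective divisors are local integral combinations of
equivariant integral functions.
-/

set_option autoImplicit false
set_option linter.unusedSectionVars false

noncomputable section

open AlgebraicCurve Module GaloisRep

namespace Fermat.Agent.FlatJ

open Fermat.Agent.FunField Fermat.Agent.FunField.PlaceLemmas Fermat.Agent.S27C
  Fermat.Agent.TorsInj Fermat.Agent.Deuring Fermat.Agent.HopfOrder

attribute [local instance] Fermat.Agent.WeilPairing.isCurveOver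

variable {ℓ : ℕ} [hℓ : Fact ℓ.Prime] {F : Type} [Field F] [Algebra Qb F] [IsFF Qb F]

/-- Polynomial families. -/
theorem eval_mem_locRing {M : Type} [MulAction GQ M] [Finite M] {ι : Type} [Fintype ι]
    (A : ValuationSubring Qb) (P : M → MvPolynomial ι Qb)
    (hP : ∀ s, (fun y => MvPolynomial.coeff s (P y)) ∈ equivInt (ratLocalizedAt ℓ) ℚ Qb M)
    (a : ι → Qb) (ha : ∀ i, a i ∈ A) :
    (fun y => MvPolynomial.eval a (P y)) ∈ locRing (ratLocalizedAt ℓ) M A := by
  classical
  have := Fintype.ofFinite M
  let S : Finset (ι →₀ ℕ) := Finset.univ.biUnion fun y => (P y).support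
  have h1 : (fun y => MvPolynomial.eval a (P y)) =
      ∑ s ∈ S, (fun _ => ∏ i, a i ^ s i) * (fun y => MvPolynomial.coeff s (P y)) := by
    funext y
    rw [MvPolynomial.eval_eq']
    simp only [Finset.sum_apply, Pi.mul_apply]
    refine Finset.sum_subset_zero_on_sdiff (Finset.subset_biUnion_of_mem (fun y => (P y).support)
      (Finset.mem_univ y)) (fun s hs => ?_) (fun s _ => mul_comm _ _)
    rw [Finset.mem_sdiff, MvPolynomial.notMem_support_iff] at hs
    rw [hs.2, mul_zero]
  rw [h1]
  refine Subalgebra.sum_mem _ fun s _ => Subalgebra.mul_mem _ ?_ (mem_locRing_of_mem A (hP s))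
  exact const_mem_locRing A (prod_mem fun i _ => pow_mem (ha i) _)

variable (ρ : GQ →* SemilinearAut Qb F) (hρ : ∀ σ a, SemilinearAut.baseAut (ρ σ) a = σ a)

theorem evalDiv_eq_prod {f : F} {D : Divisor Qb F} (hD : 0 ≤ D) :
    evalDiv f D = D.prod fun P j => val P f ^ j.toNat := by
  unfold evalDiv
  refine Finsupp.prod_congr fun P _ => ?_
  have h1 : ((D P).toNat : ℤ) = D P := Int.toNat_of_nonneg (Finsupp.le_def.1 hD P)
  conv_lhs => rw [← h1]
  rw [zpow_natCast]

include hρ in
theorem evalDiv_mem_locRing (A : ValuationSubring Qb) (hA : A.LiesOverPrime ℓ)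
    {M : Type} [MulAction GQ M] [Finite M]
    (E : M → Divisor Qb F) (hE0 : ∀ y, 0 ≤ E y) (hEe : ∀ (σ : GQ) y, E (σ • y) = ρ σ • E y)
    {ι : Type} [Fintype ι] (v : ι → F) (hinv : ∀ (σ : GQ) i, ρ σ • v i = v i)
    (hreg : ∀ y Q, E y Q ≠ 0 → ∀ i, v i ∈ Q.toValuationSubring)
    (hval : ∀ y Q, E y Q ≠ 0 → ∀ i, val Q (v i) ∈ A)
    (a : ι → Qb) (ha : ∀ i, a i ∈ A) :
    (fun y => evalDiv (∑ i, a i • v i) (E y)) ∈ locRing (ratLocalizedAt ℓ) M A := by
  classical
  let lin : Place Qb F → MvPolynomial ι Qb := fun Q =>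
    ∑ i, MvPolynomial.C (val Q (v i)) * MvPolynomial.X i
  let P : M → MvPolynomial ι Qb := fun y => (E y).prod fun Q j => lin Q ^ j.toNat
  have h1 : (fun y => evalDiv (∑ i, a i • v i) (E y)) = fun y => MvPolynomial.eval a (P y) := by
    funext y
    simp only [P]
    rw [evalDiv_eq_prod (hE0 y), Finsupp.prod, Finsupp.prod, map_prod]
    refine Finset.prod_congr rfl fun Q hQ => ?_
    rw [map_pow]
    congr 1
    have hQ' := Finsupp.mem_support_iff.1 hQ
    have h2 : ∀ s : Finset ι, (∑ i ∈ s, a i • v i) ∈ Q.toValuationSubring ∧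
        val Q (∑ i ∈ s, a i • v i) = ∑ i ∈ s, a i * val Q (v i) := by
      intro s
      induction s using Finset.induction_on with
      | empty => simp [zero_mem]
      | insert i s hi ih =>
        have h3 : a i • v i ∈ Q.toValuationSubring := by
          rw [Algebra.smul_def]
          exact mul_mem (Q.algebraMap_mem' _) (hreg y Q hQ' i)
        rw [Finset.sum_insert hi, Finset.sum_insert hi]
        refine ⟨add_mem h3 ih.1, ?_⟩
        rw [val_add Q h3 ih.1, ih.2, Algebra.smul_def,
          val_mul Q (Q.algebraMap_mem' _) (hreg y Q hQ' i), val_algebraMap]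
    rw [(h2 Finset.univ).2, map_sum]
    refine Finset.sum_congr rfl fun i _ => ?_
    rw [map_mul, MvPolynomial.eval_C, MvPolynomial.eval_X, mul_comm]
  rw [h1]
  refine eval_mem_locRing A P (fun s => ?_) a ha
  refine mem_equivInt_of_forall_mem ℓ A hA _ (fun y => ?_) (fun σ y => ?_)
  · -- integrality
    let toA : Qb → A := fun b => if h : b ∈ A then ⟨b, h⟩ else 0
    have htoA : ∀ b ∈ A, (toA b : Qb) = b := fun b hb => by
      simp only [toA, dif_pos hb]
    let P' : MvPolynomial ι A := (E y).prod fun Q j =>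
      (∑ i, MvPolynomial.C (toA (val Q (v i))) * MvPolynomial.X i) ^ j.toNat
    have h2 : P y = MvPolynomial.map A.subtype P' := by
      simp only [P, P', Finsupp.prod]
      rw [map_prod]
      refine Finset.prod_congr rfl fun Q hQ => ?_
      rw [map_pow, map_sum]
      congr 1
      refine Finset.sum_congr rfl fun i _ => ?_
      rw [map_mul, MvPolynomial.map_C, MvPolynomial.map_X]
      congr 2
      exact (htoA _ (hval y Q (Finsupp.mem_support_iff.1 hQ) i)).symm
    rw [h2, MvPolynomial.coeff_map]
    exact Subtype.property _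
  · have h2 : P (σ • y) = MvPolynomial.map (σ : Qb →+* Qb) (P y) := by
      simp only [P]
      rw [hEe, SemilinearAut.divisor_smul_def,
        Finsupp.prod_mapDomain_index_inj (MulAction.injective (ρ σ)), Finsupp.prod, Finsupp.prod,
        map_prod]
      refine Finset.prod_congr rfl fun Q hQ => ?_
      rw [map_pow]
      congr 1
      simp only [lin]
      rw [map_sum]
      refine Finset.sum_congr rfl fun i _ => ?_
      rw [map_mul, MvPolynomial.map_C, MvPolynomial.map_X]
      congr 2
      have h3 := val_smul (ρ σ) Q (hreg y Q (Finsupp.mem_support_iff.1 hQ) i)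
      rw [hinv, hρ] at h3
      exact h3
    rw [h2, MvPolynomial.coeff_map]
    rfl

end Fermat.Agent.FlatJ
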