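import Fermat.Agent.Igusa.BarData
import Fermat.Agent.HopfOrder.Equivariant
import Fermat.Agent.Frob.QbarInst

/-!
Rational orthonormal bases of Galois stable spaces of functions given by Laurent series.
-/

set_option autoImplicit false
set_option linter.unusedSectionVars false

noncomputable section

open HahnSeries ModularCurve Module AlgebraicCurve

namespace Fermat.Agent.FlatJ

open Fermat.Agent.Igusa Fermat.Agent.HopfOrder

attribute [local instance 2000] lsModule lsSMul

section Pivots

variable {L : Type*} [Field L]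

theorem exists_pivots (n : ℕ) : ∀ V : Submodule L (LaurentSeries L), FiniteDimensional L V →
    finrank L V = n →
    ∃ (y : Fin n → LaurentSeries L) (m : Fin n → ℤ), (∀ j, y j ∈ V) ∧
      ∀ i j, (y j).coeff (m i) = if i = j then 1 else 0 := by
  induction n with
  | zero =>
    intro V _ _
    exact ⟨Fin.elim0, Fin.elim0, fun i => i.elim0, fun i => i.elim0⟩
  | succ n ih =>
    intro V hfin hn
    have hpos : 0 < finrank L V := by omega
    obtain ⟨x, hx0⟩ : ∃ x : V, x ≠ 0 := by
      by_contra hcon
      push Not at hcon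
      have : Subsingleton V := ⟨fun a b => (hcon a).trans (hcon b).symm⟩
      rw [finrank_zero_of_subsingleton] at hpos
      exact lt_irrefl _ hpos
    have hx0' : (x : LaurentSeries L) ≠ 0 := fun h => hx0 (Subtype.ext h)
    obtain ⟨m₀, hm₀⟩ : ∃ m₀, (x : LaurentSeries L).coeff m₀ ≠ 0 := by
      by_contra hcon
      push Not at hcon
      exact hx0' (HahnSeries.ext (funext hcon))
    set P : LaurentSeries L := ((x : LaurentSeries L).coeff m₀)⁻¹ • (x : LaurentSeries L) with hP
    have hPV : P ∈ V := V.smul_mem _ x.2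
    have hPm : coeffLin L m₀ P = 1 := by
      rw [hP, map_smul, coeffLin_apply, smul_eq_mul, inv_mul_cancel₀ hm₀]
    set V' : Submodule L (LaurentSeries L) := V ⊓ LinearMap.ker (coeffLin L m₀) with hV'
    have hV'le : V' ≤ V := inf_le_left
    have : FiniteDimensional L V' := Submodule.finiteDimensional_of_le hV'le
    have hdim : finrank L V' = n := by
      set φ : V →ₗ[L] L := (coeffLin L m₀).comp V.subtype with hφ
      have hsurj : LinearMap.range φ = ⊤ := by
        rw [LinearMap.range_eq_top]
        intro a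
        refine ⟨a • ⟨P, hPV⟩, ?_⟩
        rw [map_smul]
        have : φ ⟨P, hPV⟩ = 1 := hPm
        rw [this, smul_eq_mul, mul_one]
      have h1 := φ.finrank_range_add_finrank_ker
      rw [hsurj, finrank_top, finrank_self, hn] at h1
      have h2 : (LinearMap.ker φ).map V.subtype = V' := by
        ext z
        simp only [Submodule.mem_map, LinearMap.mem_ker, Submodule.coe_subtype,
          Subtype.exists, exists_and_right, exists_eq_right, hV', Submodule.mem_inf]
        constructor
        · rintro ⟨hz, h⟩; exact ⟨hz, h⟩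
        · rintro ⟨hz, h⟩; exact ⟨hz, h⟩
      have h3 : finrank L V' = finrank L (LinearMap.ker φ) := by
        rw [← h2]
        exact (LinearEquiv.finrank_eq (Submodule.equivMapOfInjective V.subtype
          V.injective_subtype (LinearMap.ker φ))).symm
      omega
    obtain ⟨y, m, hyV, hpiv⟩ := ih V' inferInstance hdim
    have hy0 : ∀ j, (y j).coeff m₀ = 0 := by
      intro j
      have h1 : y j ∈ LinearMap.ker (coeffLin L m₀) := (hyV j).2
      rwa [LinearMap.mem_ker, coeffLin_apply] at h1
    set P' : LaurentSeries L := P - ∑ j, P.coeff (m j) • y j with hP'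
    have hcoef : ∀ k, P'.coeff k = P.coeff k - ∑ j, P.coeff (m j) * (y j).coeff k := by
      intro k
      have h1 : coeffLin L k P' = coeffLin L k P - ∑ j, P.coeff (m j) • coeffLin L k (y j) := by
        rw [hP', map_sub, map_sum]
        simp only [map_smul]
      exact h1
    refine ⟨Fin.cons P' y, Fin.cons m₀ m, ?_, ?_⟩
    · intro j
      refine Fin.cases ?_ (fun j => ?_) j
      · simp only [Fin.cons_zero]
        rw [hP']
        exact V.sub_mem hPV (V.sum_mem fun j _ => V.smul_mem _ (hV'le (hyV j)))
      · simp only [Fin.cons_succ]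
        exact hV'le (hyV j)
    · intro i j
      refine Fin.cases ?_ (fun i => ?_) i
      · refine Fin.cases ?_ (fun j => ?_) j
        · simp only [Fin.cons_zero, if_true]
          rw [hcoef]
          have : P.coeff m₀ = 1 := hPm
          rw [this]
          simp [hy0]
        · simp only [Fin.cons_zero, Fin.cons_succ]
          rw [hy0, if_neg (Fin.succ_ne_zero j).symm]
      · refine Fin.cases ?_ (fun j => ?_) j
        · simp only [Fin.cons_zero, Fin.cons_succ]
          rw [hcoef, if_neg (Fin.succ_ne_zero i)]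
          have : ∑ j, P.coeff (m j) * (y j).coeff (m i) = P.coeff (m i) := by
            simp only [hpiv i]
            simp
          rw [this, sub_self]
        · simp only [Fin.cons_succ, hpiv i j, Fin.succ_inj]

/-- expansion with respect to a pivot basis -/
theorem eq_sum_of_pivots {V : Submodule L (LaurentSeries L)} [FiniteDimensional L V]
    {y : Fin (finrank L V) → LaurentSeries L} {m : Fin (finrank L V) → ℤ} (hy : ∀ j, y j ∈ V)
    (hpiv : ∀ i j, (y j).coeff (m i) = if i = j then 1 else 0) {x : LaurentSeries L}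
    (hx : x ∈ V) : x = ∑ j, x.coeff (m j) • y j := by
  have hli : LinearIndependent L y := by
    rw [Fintype.linearIndependent_iff]
    intro g hg i
    have h1 := congrArg (coeffLin L (m i)) hg
    rw [map_sum, map_zero] at h1
    rw [← h1]
    have : ∀ j, coeffLin L (m i) (g j • y j) = if i = j then g j else 0 := by
      intro j
      rw [map_smul, coeffLin_apply, hpiv i j]
      split_ifs <;> simp
    simp [this]
  have hli' : LinearIndependent L (fun j => (⟨y j, hy j⟩ : V)) :=
    LinearIndependent.of_comp V.subtype hli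
  have htop := hli'.span_eq_top_of_card_eq_finrank' (by simp)
  have hmem : (⟨x, hx⟩ : V) ∈ Submodule.span L (Set.range fun j => (⟨y j, hy j⟩ : V)) := by
    rw [htop]; trivial
  obtain ⟨c, hc⟩ := (Submodule.mem_span_range_iff_exists_fun L).mp hmem
  have hc' : x = ∑ j, c j • y j := by
    have := congrArg Subtype.val hc
    simpa using this.symm
  have hcm : ∀ i, x.coeff (m i) = c i := by
    intro i
    have h1 := congrArg (coeffLin L (m i)) hc'
    rw [map_sum] at h1
    have : ∀ j, coeffLin L (m i) (c j • y j) = if i = j then c j else 0 := by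
      intro j
      rw [map_smul, coeffLin_apply, hpiv i j]
      split_ifs <;> simp
    simp only [this] at h1
    simpa using h1
  conv_lhs => rw [hc']
  exact Finset.sum_congr rfl fun j _ => by rw [hcm]

end Pivots

section Rational

variable {L : Type} [Field L] [Algebra ℚ L] [IsGalois ℚ L]

theorem exists_lift_coeffEmb (x : LaurentSeries L)
    (h : ∀ n, ∃ q : ℚ, algebraMap ℚ L q = x.coeff n) :
    ∃ y : LaurentSeries ℚ, coeffEmb L y = x := by
  choose q hq using h
  refine ⟨⟨q, ?_⟩, ?_⟩
  · refine x.isPWO_support.mono ?_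
    intro n hn
    simp only [Function.mem_support, ne_eq] at hn
    rw [HahnSeries.mem_support]
    intro h0
    apply hn
    have h1 := hq n
    rw [h0] at h1
    exact (map_eq_zero _).1 h1
  · ext n
    rw [coeffEmb_coeff]
    exact hq n

/-- A Galois stable space of Laurent series has a rational pivot basis. -/
theorem exists_rational_pivots (V : Submodule L
    (LaurentSeries L)) [FiniteDimensional L V]
    (hV : ∀ σ : L ≃ₐ[ℚ] L, ∀ x ∈ V,
      coeffMap (σ : L →+* L) x ∈ V) :
    ∃ (y : Fin (finrank L V) → LaurentSeries ℚ)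
      (m : Fin (finrank L V) → ℤ),
      (∀ j, coeffEmb L (y j) ∈ V) ∧
      ∀ i j, (y j).coeff (m i) = if i = j then 1 else 0 := by
  obtain ⟨y, m, hyV, hpiv⟩ := exists_pivots _ V inferInstance rfl
  have hfix : ∀ (σ : L ≃ₐ[ℚ] L) j,
      coeffMap (σ : L →+* L) (y j) = y j := by
    intro σ j
    have h1 := eq_sum_of_pivots hyV hpiv (hV σ _ (hyV j))
    rw [h1]
    have h2 : ∀ i, (coeffMap (σ : L →+* L) (y j)).coeff (m i) =
        if i = j then 1 else 0 := by
      intro i
      rw [coeffMap_coeff, hpiv]
      split_ifs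
      · exact map_one σ
      · exact map_zero σ
    simp only [h2, ite_smul, zero_smul, Finset.sum_ite_eq', Finset.mem_univ, if_true]
    rw [Algebra.smul_def, map_one, one_mul]
  have hrat : ∀ j n, ∃ q : ℚ, algebraMap ℚ L q = (y j).coeff n := by
    intro j n
    apply (InfiniteGalois.mem_range_algebraMap_iff_fixed _).2
    intro σ
    have h1 := congrArg (fun z : LaurentSeries L => z.coeff n) (hfix σ j)
    exact h1
  choose y' hy' using fun j => exists_lift_coeffEmb (y j) (hrat j)
  refine ⟨y', m, fun j => by rw [hy']; exact hyV j, fun i j => ?_⟩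
  have h1 := hpiv i j
  rw [← hy', coeffEmb_coeff] at h1
  apply (algebraMap ℚ L).injective
  rw [h1]
  split_ifs
  · exact (map_one _).symm
  · exact (map_zero _).symm

/-- The rational series in a field of Laurent series. -/
def ratField (F : IntermediateField L (LaurentSeries L)) :
    IntermediateField ℚ (LaurentSeries ℚ) where
  carrier := {x | coeffEmb L x ∈ F}
  mul_mem' := by
    intro x y hx hy
    simp only [Set.mem_ofPred_eq] at hx hy ⊢
    rw [map_mul]; exact mul_mem hx hy
  one_mem' := by
    simp only [Set.mem_ofPred_eq]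
    rw [map_one]; exact one_mem _
  add_mem' := by
    intro x y hx hy
    simp only [Set.mem_ofPred_eq] at hx hy ⊢
    rw [map_add]; exact add_mem hx hy
  zero_mem' := by
    simp only [Set.mem_ofPred_eq]
    rw [map_zero]; exact zero_mem _
  algebraMap_mem' := by
    intro q
    simp only [Set.mem_ofPred_eq]
    have : coeffEmb L (algebraMap ℚ (LaurentSeries ℚ) q)
        = algebraMap L (LaurentSeries L)
          (algebraMap ℚ L q) := by
      rw [algebraMap_laurentSeries_eq_single, algebraMap_laurentSeries_eq_single, coeffEmb,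
        coeffMap_single]
    rw [this]
    exact F.algebraMap_mem _
  inv_mem' := by
    intro x hx
    simp only [Set.mem_ofPred_eq] at hx ⊢
    rw [map_inv₀]; exact inv_mem hx

theorem mem_ratField {F : IntermediateField L
    (LaurentSeries L)} {x : LaurentSeries ℚ} :
    x ∈ ratField F ↔ coeffEmb L x ∈ F := Iff.rfl

/-- coefficientwise application of a linear functional. -/
def applyFun (φ : L →ₗ[ℚ] ℚ) (x : LaurentSeries L) :
    LaurentSeries ℚ :=
  ⟨fun n => φ (x.coeff n), x.isPWO_support.mono fun n hn => by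
    simp only [Function.mem_support, ne_eq] at hn
    rw [HahnSeries.mem_support]
    intro h0
    exact hn (by rw [h0, map_zero])⟩

theorem applyFun_coeff (φ : L →ₗ[ℚ] ℚ) (x : LaurentSeries L)
    (n : ℤ) : (applyFun φ x).coeff n = φ (x.coeff n) := rfl

theorem applyFun_mul (φ : L →ₗ[ℚ] ℚ) (x : LaurentSeries ℚ)
    (y : LaurentSeries L) :
    applyFun φ (coeffEmb L x * y) = x * applyFun φ y := by
  ext n
  rw [applyFun_coeff]
  have hx : (coeffEmb L x).support ⊆ x.support := by
    intro k hk
    rw [HahnSeries.mem_support, coeffEmb_coeff] at hk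
    rw [HahnSeries.mem_support]
    intro h0
    exact hk (by rw [h0, map_zero])
  have hy : (applyFun φ y).support ⊆ y.support := by
    intro k hk
    rw [HahnSeries.mem_support, applyFun_coeff] at hk
    rw [HahnSeries.mem_support]
    intro h0
    exact hk (by rw [h0, map_zero])
  rw [HahnSeries.coeff_mul_left' x.isPWO_support hx, HahnSeries.coeff_mul_right' y.isPWO_support hy,
    map_sum]
  refine Finset.sum_congr rfl fun ij _ => ?_
  rw [coeffEmb_coeff, applyFun_coeff, ← Algebra.smul_def, map_smul, smul_eq_mul]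

theorem applyFun_mem_tame (φ : L →ₗ[ℚ] ℚ)
    {x : LaurentSeries L} (hx : x ∈ tame L) :
    applyFun φ x ∈ tame ℚ := by
  obtain ⟨M, hM, hx⟩ := hx
  refine ⟨M.map (φ.toAddMonoidHom.toIntLinearMap), hM.map _, fun n => ?_⟩
  exact ⟨x.coeff n, hx n, rfl⟩

theorem isTameField_ratField {F : IntermediateField L
    (LaurentSeries L)} (hF : IsTameField F) : IsTameField (ratField F) := by
  intro x hx
  obtain ⟨P, hP, Q, hQ, hQ0, hPQ⟩ := hF _ hx
  obtain ⟨n, hn⟩ : ∃ n, Q.coeff n ≠ 0 := by
    by_contra hcon
    push Not at hcon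
    exact hQ0 (HahnSeries.ext (funext hcon))
  obtain ⟨φ, hφ⟩ := Module.Projective.exists_dual_ne_zero ℚ hn
  refine ⟨applyFun φ P, applyFun_mem_tame φ hP, applyFun φ Q, applyFun_mem_tame φ hQ, ?_, ?_⟩
  · intro h0
    have h1 := congrArg (fun z : LaurentSeries ℚ => z.coeff n) h0
    exact hφ h1
  · rw [← hPQ, applyFun_mul]

variable (A : ValuationSubring L) {κ : Type} [Field κ] (π : A →+* κ)

/-- the rational part of a valuation ring. -/
def ratA : ValuationSubring ℚ := A.comap (algebraMap ℚ L)

/-- the inclusion. -/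
def ratIncl : ratA A →+* A :=
  ((algebraMap ℚ L).comp (ratA A).subtype).codRestrict A.toSubring
    fun a => a.2

@[simp] theorem coe_ratIncl (a : ratA A) :
    ((ratIncl A a : A) : L) = algebraMap ℚ L (a : ℚ) := rfl

theorem coeffEmb_subtype (P : LaurentSeries (ratA A)) :
    coeffEmb L (coeffMap (ratA A).subtype P) =
      coeffMap A.subtype (coeffMap (ratIncl A) P) := by
  ext n
  rfl

theorem gauss_compat {x : LaurentSeries ℚ} (hx : x ∈ gaussRing (ratA A) (π.comp (ratIncl A))) :
    ∃ h : coeffEmb L x ∈ gaussRing A π,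
      gaussRes A π ⟨_, h⟩ = gaussRes (ratA A) (π.comp (ratIncl A)) ⟨x, hx⟩ := by
  obtain ⟨P, Q, hQ, hPQ⟩ := mem_gaussRing_iff.1 hx
  have hQ' : coeffMap π (coeffMap (ratIncl A) Q) ≠ 0 := by
    rw [coeffMap_coeffMap]; exact hQ
  have hPQ' : coeffEmb L x * coeffMap A.subtype (coeffMap (ratIncl A) Q) =
      coeffMap A.subtype (coeffMap (ratIncl A) P) := by
    rw [← coeffEmb_subtype, ← coeffEmb_subtype, ← map_mul, hPQ]
  have hmem : coeffEmb L x ∈ gaussRing A π := mem_gaussRing_iff.2 ⟨_, _, hQ', hPQ'⟩
  have e1 : gaussRes A π ⟨coeffEmb L x, hmem⟩ = coeffMap π (coeffMap (ratIncl A) P) /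
      coeffMap π (coeffMap (ratIncl A) Q) := gaussRes_eq ⟨coeffEmb L x, hmem⟩ hQ' hPQ'
  have e2 : gaussRes (ratA A) (π.comp (ratIncl A)) ⟨x, hx⟩ =
      coeffMap (π.comp (ratIncl A)) P / coeffMap (π.comp (ratIncl A)) Q :=
    gaussRes_eq ⟨x, hx⟩ hQ hPQ
  rw [coeffMap_coeffMap, coeffMap_coeffMap] at e1
  exact ⟨hmem, e1.trans e2.symm⟩

/-- **Rational orthonormal bases.** -/
theorem exists_invariant_orthonormal
    (F : IntermediateField L (LaurentSeries L))
    (hF : IsTameField F) (V : Submodule L F)
    [FiniteDimensional L V]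
    (hV : ∀ σ : L ≃ₐ[ℚ] L, ∀ x ∈ V, ∀ z : F,
      (z : LaurentSeries L) =
        coeffMap (σ : L →+* L) x → z ∈ V)
    (hFσ : ∀ σ : L ≃ₐ[ℚ] L, ∀ x ∈ F,
      coeffMap (σ : L →+* L) x ∈ F) :
    ∃ u : Fin (finrank L V) → gaussVal A π hF,
      (∀ i, ((u i : gaussVal A π hF) : F) ∈ V) ∧
      LinearIndependent κ (fun i => gaussValRes A π hF (u i)) ∧
      ∀ i, ∃ y : LaurentSeries ℚ, (((u i : gaussVal A π hF) : F) :
        LaurentSeries L) = coeffEmb L y := by
  classical
  -- the image in Laurent series
  let W : Submodule L (LaurentSeries L) :=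
    V.map F.val.toLinearMap
  have hWfin : FiniteDimensional L W := inferInstance
  have hWV : finrank L W = finrank L V :=
    (LinearEquiv.finrank_eq (Submodule.equivMapOfInjective F.val.toLinearMap
      (fun x y h => Subtype.ext h) V)).symm
  obtain ⟨y, m, hyW, hpiv⟩ := exists_rational_pivots W (by
    rintro σ _ ⟨x, hx, rfl⟩
    exact ⟨⟨_, hFσ σ x x.2⟩, hV σ x hx ⟨_, hFσ σ x x.2⟩ rfl, rfl⟩)
  -- the rational space
  let G := ratField F
  have hG : IsTameField G := isTameField_ratField hF
  let V' : Submodule ℚ G :=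
    { carrier := {x | ∃ z ∈ V, ((z : F) : LaurentSeries L) =
        coeffEmb L (x : LaurentSeries ℚ)}
      zero_mem' := ⟨0, V.zero_mem, by
        rw [ZeroMemClass.coe_zero, ZeroMemClass.coe_zero, map_zero]⟩
      add_mem' := by
        rintro a b ⟨z, hz, hza⟩ ⟨w, hw, hwb⟩
        exact ⟨z + w, V.add_mem hz hw, by
          rw [AddMemClass.coe_add, AddMemClass.coe_add, map_add, hza, hwb]⟩
      smul_mem' := by
        rintro c a ⟨z, hz, hza⟩
        refine ⟨algebraMap ℚ L c • z, V.smul_mem _ hz, ?_⟩
        rw [IntermediateField.coe_smul, IntermediateField.coe_smul, Algebra.smul_def,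
          Algebra.smul_def, map_mul, hza]
        congr 1
        rw [algebraMap_laurentSeries_eq_single, algebraMap_laurentSeries_eq_single, coeffEmb,
          coeffMap_single] }
  have hV' : ∀ x : G, x ∈ V' ↔ ∃ z ∈ V, ((z : F) : LaurentSeries L) =
      coeffEmb L (x : LaurentSeries ℚ) := fun x => Iff.rfl
  have hinj : Function.Injective (coeffEmb L) := (coeffEmb L).injective
  -- the rational basis
  have hyV : ∀ j, ∃ z ∈ V, ((z : F) : LaurentSeries L) = coeffEmb L (y j) := fun j => by
    obtain ⟨z, hz, hz'⟩ := hyW j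
    exact ⟨z, hz, hz'⟩
  have hyG : ∀ j, y j ∈ G := fun j => by
    obtain ⟨z, hz, hz'⟩ := hyV j
    rw [mem_ratField, ← hz']
    exact z.2
  have hpiv' : ∀ i j, (coeffEmb L (y j)).coeff (m i) = if i = j then 1 else 0 := by
    intro i j
    rw [coeffEmb_coeff, hpiv]
    split_ifs
    · exact map_one _
    · exact map_zero _
  let e : Fin (finrank L W) → V' := fun j => ⟨⟨y j, hyG j⟩, (hV' _).2 (hyV j)⟩
  have heli : LinearIndependent ℚ e := by
    rw [Fintype.linearIndependent_iff]
    intro g hg i
    have h1 : ∑ j, g j • (y j : LaurentSeries ℚ) = 0 := by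
      have h2 := congrArg (fun z : V' => ((z : G) : LaurentSeries ℚ)) hg
      simpa [e] using h2
    have h3 := congrArg (coeffLin ℚ (m i)) h1
    rw [map_sum, map_zero] at h3
    rw [← h3]
    have : ∀ j, coeffLin ℚ (m i) (g j • y j) = if i = j then g j else 0 := by
      intro j
      rw [map_smul, coeffLin_apply, hpiv i j]
      split_ifs <;> simp
    simp [this]
  have hespan : ⊤ ≤ Submodule.span ℚ (Set.range e) := by
    intro x _
    obtain ⟨z, hz, hzx⟩ := (hV' _).1 x.2
    have hxW : coeffEmb L ((x : G) : LaurentSeries ℚ) ∈ W := ⟨z, hz, hzx⟩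
    have h1 := eq_sum_of_pivots hyW hpiv' hxW
    have h2 : ((x : G) : LaurentSeries ℚ) =
        ∑ j, ((x : G) : LaurentSeries ℚ).coeff (m j) • y j := by
      apply hinj
      rw [h1, map_sum]
      refine Finset.sum_congr rfl fun j _ => ?_
      rw [coeffEmb_coeff, Algebra.smul_def, Algebra.smul_def, map_mul]
      congr 1
      rw [algebraMap_laurentSeries_eq_single, algebraMap_laurentSeries_eq_single, coeffEmb,
        coeffMap_single]
    have h3 : x = ∑ j, ((x : G) : LaurentSeries ℚ).coeff (m j) • e j := by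
      apply Subtype.ext
      apply Subtype.ext
      refine h2.trans ?_
      simp [e]
    rw [h3]
    exact Submodule.sum_mem _ fun j _ => Submodule.smul_mem _ _ (Submodule.subset_span ⟨j, rfl⟩)
  let B : Basis (Fin (finrank L W)) ℚ V' := Basis.mk heli hespan
  have hfd : FiniteDimensional ℚ V' := Module.Finite.of_basis B
  have hfr : finrank ℚ V' = finrank L V := by
    rw [Module.finrank_eq_card_basis B, Fintype.card_fin, hWV]
  obtain ⟨b, hb, hbli⟩ := exists_orthonormal (ratA A) (π.comp (ratIncl A)) hG V'
  choose z hz hzb using fun i => (hV' _).1 (hb i)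
  have hzO : ∀ i, z i ∈ gaussVal A π hF := fun i => by
    rw [mem_gaussVal_iff, hzb]
    exact (gauss_compat A π (b i).2).1
  have hres : ∀ i, gaussValRes A π hF ⟨z i, hzO i⟩ =
      gaussValRes (ratA A) (π.comp (ratIncl A)) hG (b i) := by
    intro i
    obtain ⟨h1, h2⟩ := gauss_compat A π (b i).2
    have h3 : gaussValRes A π hF ⟨z i, hzO i⟩ = gaussRes A π ⟨_, h1⟩ :=
      gaussRes_congr (hzb i)
    rw [h3, h2]
    rfl
  refine ⟨fun i => ⟨z (Fin.cast hfr.symm i), hzO _⟩, fun i => hz _, ?_, fun i => ⟨_, hzb _⟩⟩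
  simp only [hres]
  exact hbli.comp (Fin.cast hfr.symm) (Fin.cast_injective _)

end Rational

end Fermat.Agent.FlatJ
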