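import Fermat.Agent.Deuring.Unique
import Fermat.Agent.WeilPairing.Value

/-!
Reduction of values of functions at places (Deuring reduction).
-/

set_option autoImplicit false
set_option linter.unusedSectionVars false

noncomputable section

open AlgebraicCurve Module

namespace Fermat.Agent.FlatJ

open Fermat.Agent.FunField Fermat.Agent.FunField.PlaceLemmas Fermat.Agent.S27C
  Fermat.Agent.Deuring

attribute [local instance] Fermat.Agent.WeilPairing.isCurveOver

section MapDomain

variable {α β : Type*} (r : α → β)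

theorem mapDomain_apply_nonneg (G : α →₀ ℤ) (z : β) (h : ∀ Q, r Q = z → 0 ≤ G Q) :
    0 ≤ Finsupp.mapDomain r G z := by
  classical
  rw [Finsupp.mapDomain, Finsupp.sum_apply, Finsupp.sum]
  refine Finset.sum_nonneg fun a _ => ?_
  rw [Finsupp.single_apply]
  split_ifs with h1
  · exact h a h1
  · exact le_rfl

theorem le_mapDomain_apply (G : α →₀ ℤ) (P : α) (h : ∀ Q, r Q = r P → 0 ≤ G Q) :
    G P ≤ Finsupp.mapDomain r G (r P) := by
  classical
  rw [Finsupp.mapDomain, Finsupp.sum_apply, Finsupp.sum]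
  by_cases hP : P ∈ G.support
  · refine le_trans (le_of_eq ?_) (Finset.single_le_sum (s := G.support)
      (f := fun a => (Finsupp.single (r a) (G a)) (r P)) (fun a _ => ?_) hP)
    · simp
    · rw [Finsupp.single_apply]
      split_ifs with h1
      · exact h a h1
      · exact le_rfl
  · rw [Finsupp.notMem_support_iff.1 hP]
    refine Finset.sum_nonneg fun a _ => ?_
    rw [Finsupp.single_apply]
    split_ifs with h1
    · exact h a h1
    · exact le_rfl

theorem mapDomain_apply_pos (G : α →₀ ℤ) (P : α) (h : ∀ Q, r Q = r P → 0 ≤ G Q)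
    (hP : 0 < G P) : 0 < Finsupp.mapDomain r G (r P) :=
  lt_of_lt_of_le hP (le_mapDomain_apply r G P h)

end MapDomain

variable {L k F F₁ : Type*} [Field L] [Field k] [Field F] [Field F₁] [Algebra L F]
  [Algebra k F₁] [IsFF L F] [IsFF k F₁] [IsAlgClosed L] [IsAlgClosed k]
  {𝔇 : Data L k F F₁} {r : Place L F → Place k F₁}

/-- The reduction of a function without poles in a residue disc has no pole. -/
theorem res_mem (hr : 𝔇.IsRed r) (f : 𝔇.O) (P : Place L F)
    (h : ∀ Q, r Q = r P → (f : F) ∈ Q.toValuationSubring) :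
    𝔇.res f ∈ (r P).toValuationSubring := by
  by_cases h0 : 𝔇.res f = 0
  · rw [h0]; exact zero_mem _
  have hf0 := 𝔇.coe_ne_zero_of_res_ne_zero h0
  refine S27C.mem_of_ord_nonneg ?_
  rw [← hr.div f h0 (dv (K := L) (f : F) hf0) (fun P => dv_apply hf0 P)]
  refine mapDomain_apply_nonneg r _ _ fun Q hQ => ?_
  rw [dv_apply]
  exact ((S27C.mem_iff_ord Q _).1 (h Q hQ)).resolve_left hf0

theorem ord_pos_of_val_eq {v : Place L F} {f : F} (hf : f ∈ v.toValuationSubring) (a : L)
    (h : val v f = a) : f = algebraMap L F a ∨ 0 < v.ord (f - algebraMap L F a) := by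
  have h1 := val_spec v hf
  rw [adic_lt_one_iff, h, sub_eq_zero] at h1
  exact h1

/-- **Values reduce to values.** -/
theorem val_red (hr : 𝔇.IsRed r) (f : 𝔇.O) (P : Place L F)
    (h : ∀ Q, r Q = r P → (f : F) ∈ Q.toValuationSubring) :
    ∃ ha : val P (f : F) ∈ 𝔇.A, val (r P) (𝔇.res f) = 𝔇.π ⟨val P (f : F), ha⟩ := by
  have hfP := h P rfl
  have key : val P (f : F) ∈ 𝔇.A := by
    by_contra hcon
    set a := val P (f : F) with ha
    have ha0 : a ≠ 0 := fun h0 => hcon (h0 ▸ zero_mem _)
    have hinv : a⁻¹ ∈ 𝔇.A := (𝔇.A.mem_or_inv_mem a).resolve_left hcon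
    have hπ : 𝔇.π ⟨a⁻¹, hinv⟩ = 0 := by
      rw [𝔇.π_ker]
      intro hu
      obtain ⟨b, hb⟩ := hu.exists_right_inv
      have h1 : a⁻¹ * (b : L) = 1 := congrArg Subtype.val hb
      apply hcon
      have h2 : a = b := by
        field_simp at h1
        exact h1.symm
      rw [h2]
      exact b.2
    rcases ord_pos_of_val_eq hfP a ha.symm with h1 | h1
    · apply hcon
      rw [← 𝔇.mem_iff, ← h1]
      exact f.2
    · -- the function `1 - a⁻¹ f`
      let g : 𝔇.O := 1 - 𝔇.cst ⟨a⁻¹, hinv⟩ * f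
      have hg : 𝔇.res g = 1 := by
        simp only [g]
        rw [map_sub, map_one, map_mul, 𝔇.res_cst, hπ, map_zero, zero_mul, sub_zero]
      have hg0 : 𝔇.res g ≠ 0 := by rw [hg]; exact one_ne_zero
      have hgF0 := 𝔇.coe_ne_zero_of_res_ne_zero hg0
      have h2 := hr.div g hg0 (dv (K := L) (g : F) hgF0) (fun P => dv_apply hgF0 P) (r P)
      rw [hg, Place.ord_one] at h2
      have hgF : (g : F) = -(algebraMap L F a⁻¹) * ((f : F) - algebraMap L F a) := by
        have h3 : (g : F) = 1 - algebraMap L F a⁻¹ * (f : F) := rfl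
        rw [h3, mul_sub, neg_mul, neg_mul, sub_neg_eq_add, ← map_mul, inv_mul_cancel₀ ha0, map_one]
        ring
      have h4 : 0 < P.ord (g : F) := by
        have h5 : -(algebraMap L F a⁻¹) ≠ 0 := by
          rw [neg_ne_zero, Ne, map_eq_zero]
          exact inv_ne_zero ha0
        have h6 : (f : F) - algebraMap L F a ≠ 0 := by
          intro h0
          rw [h0, Place.ord_zero] at h1
          exact lt_irrefl _ h1
        rw [hgF, P.ord_mul h5 h6, ← map_neg, ord_algebraMap, zero_add]
        exact h1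
      have h7 := mapDomain_apply_pos r (dv (K := L) (g : F) hgF0) P (fun Q hQ => ?_) (by
        rw [dv_apply]; exact h4)
      · rw [h2] at h7
        exact lt_irrefl _ h7
      · rw [dv_apply]
        refine ((S27C.mem_iff_ord Q _).1 ?_).resolve_left hgF0
        rw [hgF]
        exact mul_mem (neg_mem (Q.algebraMap_mem' _)) (sub_mem (h Q hQ) (Q.algebraMap_mem' _))
  refine ⟨key, ?_⟩
  apply Fermat.Agent.WeilPairing.val_eq_of_ord_sub
  set a : 𝔇.A := ⟨val P (f : F), key⟩ with ha
  by_cases hres : 𝔇.res (f - 𝔇.cst a) = 0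
  · left
    rw [map_sub, 𝔇.res_cst, sub_eq_zero] at hres
    exact hres
  · right
    have hF0 := 𝔇.coe_ne_zero_of_res_ne_zero hres
    have h1 := hr.div _ hres (dv (K := L) _ hF0) (fun P => dv_apply hF0 P) (r P)
    rw [map_sub, 𝔇.res_cst] at h1
    rw [← h1]
    have hco : ((f - 𝔇.cst a : 𝔇.O) : F) = (f : F) - algebraMap L F (a : L) := rfl
    refine mapDomain_apply_pos r _ P (fun Q hQ => ?_) ?_
    · rw [dv_apply]
      refine ((S27C.mem_iff_ord Q _).1 ?_).resolve_left hF0
      rw [hco]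
      exact sub_mem (h Q hQ) (Q.algebraMap_mem' _)
    · rw [dv_apply]
      rcases ord_pos_of_val_eq hfP (a : L) rfl with h2 | h2
      · exfalso
        apply hF0
        rw [hco, sub_eq_zero]
        exact h2
      · exact h2

/-- The value is a unit when the reduction of the function does not vanish. -/
theorem val_inv_mem (hr : 𝔇.IsRed r) (f : 𝔇.O) (P : Place L F)
    (h : ∀ Q, r Q = r P → (f : F) ∈ Q.toValuationSubring)
    (h0 : 𝔇.res f ≠ 0) (h1 : (r P).ord (𝔇.res f) = 0) :
    val P (f : F) ≠ 0 ∧ (val P (f : F))⁻¹ ∈ 𝔇.A := by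
  obtain ⟨ha, hval⟩ := val_red hr f P h
  have h2 : 𝔇.π ⟨val P (f : F), ha⟩ ≠ 0 := by
    rw [← hval]
    exact Fermat.Agent.WeilPairing.val_ne_zero h0 h1
  rw [Ne, 𝔇.π_ker, not_not] at h2
  obtain ⟨b, hb⟩ := h2.exists_right_inv
  have h3 : val P (f : F) * (b : L) = 1 := congrArg Subtype.val hb
  refine ⟨left_ne_zero_of_mul_eq_one h3, ?_⟩
  rw [inv_eq_of_mul_eq_one_right h3]
  exact b.2

end Fermat.Agent.FlatJ
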